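import Fermat.Agent.S52.RS.Coeff6_25

/-!
# S52 / RS: coefficient of `t ^ 28` for `kE6` (GENERATED, gen_planrs2.py)
One identity per file, files chained by imports: this bounds the memory of a parallel build.
-/

set_option autoImplicit false
set_option linter.unusedSimpArgs false
set_option linter.unusedVariables false
set_option linter.style.longLine false
set_option maxRecDepth 100000
set_option maxHeartbeats 4000000

namespace Fermat.Agent.S52

variable {R : Type*} [CommRing R]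

theorem rs6_coeff28 (a b : R) :
    rs6c28 a b (11 * b ^ 2 - 66 * a * b - a ^ 2) (b ^ 2 - 66 * a * b - 11 * a ^ 2) =
      rsC6Coeff28 (kE4 a b) (-(kE6 a b)) := by
  simp only [rs6c28, rsC6Coeff28, rsTabP28 a b, rsTabP25 a b, rsTabP24 a b, rsTabP23 a b, rsTabP20 a b, rsTabP19 a b, rsTabP18 a b, rsTabP10 a b, rsTabP9 a b, rsTabP8 a b, rsTabP5 a b, rsTabP4 a b, rsTabP3 a b, rsTabQ28 a b, rsTabQ25 a b, rsTabQ24 a b, rsTabQ23 a b, rsTabQ20 a b, rsTabQ19 a b, rsTabQ18 a b, rsTabQ10 a b, rsTabQ9 a b, rsTabQ8 a b, rsTabQ5 a b, rsTabQ4 a b, rsTabQ3 a b, rsTabE414 a b, rsTabE411 a b, rsTabE48 a b, rsTabE45 a b, rsTabE42 a b, rsTabE69 a b, rsTabE67 a b, rsTabE65 a b, rsTabE63 a b]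
  try simp only [kE4, kE6]
  ring

end Fermat.Agent.S52
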