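import Fermat.Agent.S52.RS.Coeff4_11

/-!
# S52 / RS: coefficient of `t ^ 12` for `kE4` (GENERATED, gen_planrs2.py)
One identity per file, files chained by imports: this bounds the memory of a parallel build.
-/

set_option autoImplicit false
set_option linter.unusedSimpArgs false
set_option linter.unusedVariables false
set_option linter.style.longLine false
set_option maxRecDepth 100000
set_option maxHeartbeats 4000000

namespace Fermat.Agent.S52

variable {R : Type*} [CommRing R]

theorem rs4_coeff12 (a b : R) :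
    rs4c12 a b (11 * b ^ 2 - 66 * a * b - a ^ 2) (b ^ 2 - 66 * a * b - 11 * a ^ 2) =
      rsC4Coeff12 (kE4 a b) (-(kE6 a b)) := by
  simp only [rs4c12, rsC4Coeff12, rsTabP12 a b, rsTabP11 a b, rsTabP10 a b, rsTabP9 a b, rsTabP8 a b, rsTabP7 a b, rsTabP6 a b, rsTabP5 a b, rsTabP4 a b, rsTabP3 a b, rsTabP2 a b, rsTabQ12 a b, rsTabQ11 a b, rsTabQ10 a b, rsTabQ9 a b, rsTabQ8 a b, rsTabQ7 a b, rsTabQ6 a b, rsTabQ5 a b, rsTabQ4 a b, rsTabQ3 a b, rsTabQ2 a b, rsTabE47 a b, rsTabE44 a b, rsTabE64 a b, rsTabE62 a b]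
  try simp only [kE4, kE6]
  ring

end Fermat.Agent.S52
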