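import Fermat.Agent.S52.Plan

/-!
# S52 / RS: formal expansion in `t` for `kE4` with `P, Q` as atoms (GENERATED)
-/

set_option autoImplicit false
set_option linter.unusedSimpArgs false
set_option linter.unusedVariables false
set_option linter.style.longLine false
set_option maxRecDepth 100000
set_option maxHeartbeats 4000000

namespace Fermat.Agent.S52

variable {R : Type*} [CommRing R]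

/-- coefficient of `t ^ 0` in the formal expansion. -/
def rs4c0 (a b P Q : R) : R :=
  b ^ 4 + 228 * a * b ^ 3 + 494 * a ^ 2 * b ^ 2 - 228 * a ^ 3 * b + a ^ 4

/-- coefficient of `t ^ 1` in the formal expansion. -/
def rs4c1 (a b P Q : R) : R :=
  -20 * b ^ 4 * Q - 3420 * a * b ^ 3 * Q + 1140 * a * b ^ 3 * P - 4940 * a ^ 2 * b ^ 2 * Q + 4940 *
  a ^ 2 * b ^ 2 * P + 1140 * a ^ 3 * b * Q - 3420 * a ^ 3 * b * P + 20 * a ^ 4 * P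

/-- coefficient of `t ^ 2` in the formal expansion. -/
def rs4c2 (a b P Q : R) : R :=
  190 * b ^ 4 * Q ^ 2 + 23940 * a * b ^ 3 * Q ^ 2 - 17100 * a * b ^ 3 * P * Q + 2280 * a * b ^ 3 *
  P ^ 2 + 22230 * a ^ 2 * b ^ 2 * Q ^ 2 - 49400 * a ^ 2 * b ^ 2 * P * Q + 22230 * a ^ 2 * b ^ 2 * P
  ^ 2 - 2280 * a ^ 3 * b * Q ^ 2 + 17100 * a ^ 3 * b * P * Q - 23940 * a ^ 3 * b * P ^ 2 + 190 * a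
  ^ 4 * P ^ 2

/-- coefficient of `t ^ 3` in the formal expansion. -/
def rs4c3 (a b P Q : R) : R :=
  -1140 * b ^ 4 * Q ^ 3 - 103740 * a * b ^ 3 * Q ^ 3 + 119700 * a * b ^ 3 * P * Q ^ 2 - 34200 * a *
  b ^ 3 * P ^ 2 * Q + 2280 * a * b ^ 3 * P ^ 3 - 59280 * a ^ 2 * b ^ 2 * Q ^ 3 + 222300 * a ^ 2 * b
  ^ 2 * P * Q ^ 2 - 222300 * a ^ 2 * b ^ 2 * P ^ 2 * Q + 59280 * a ^ 2 * b ^ 2 * P ^ 3 + 2280 * a ^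
  3 * b * Q ^ 3 - 34200 * a ^ 3 * b * P * Q ^ 2 + 119700 * a ^ 3 * b * P ^ 2 * Q - 103740 * a ^ 3 *
  b * P ^ 3 + 1140 * a ^ 4 * P ^ 3

/-- coefficient of `t ^ 4` in the formal expansion. -/
def rs4c4 (a b P Q : R) : R :=
  4845 * b ^ 4 * Q ^ 4 + 311220 * a * b ^ 3 * Q ^ 4 - 518700 * a * b ^ 3 * P * Q ^ 3 + 239400 * a *
  b ^ 3 * P ^ 2 * Q ^ 2 - 34200 * a * b ^ 3 * P ^ 3 * Q + 1140 * a * b ^ 3 * P ^ 4 + 103740 * a ^ 2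
  * b ^ 2 * Q ^ 4 - 592800 * a ^ 2 * b ^ 2 * P * Q ^ 3 + 1000350 * a ^ 2 * b ^ 2 * P ^ 2 * Q ^ 2 -
  592800 * a ^ 2 * b ^ 2 * P ^ 3 * Q + 103740 * a ^ 2 * b ^ 2 * P ^ 4 - 1140 * a ^ 3 * b * Q ^ 4 +
  34200 * a ^ 3 * b * P * Q ^ 3 - 239400 * a ^ 3 * b * P ^ 2 * Q ^ 2 + 518700 * a ^ 3 * b * P ^ 3 *
  Q - 311220 * a ^ 3 * b * P ^ 4 + 4845 * a ^ 4 * P ^ 4

/-- coefficient of `t ^ 5` in the formal expansion. -/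
def rs4c5 (a b P Q : R) : R :=
  -15504 * b ^ 4 * Q ^ 5 - 684684 * a * b ^ 3 * Q ^ 5 + 1556100 * a * b ^ 3 * P * Q ^ 4 - 1037400 *
  a * b ^ 3 * P ^ 2 * Q ^ 3 + 239400 * a * b ^ 3 * P ^ 3 * Q ^ 2 - 17100 * a * b ^ 3 * P ^ 4 * Q +
  228 * a * b ^ 3 * P ^ 5 - 124488 * a ^ 2 * b ^ 2 * Q ^ 5 + 1037400 * a ^ 2 * b ^ 2 * P * Q ^ 4 -
  2667600 * a ^ 2 * b ^ 2 * P ^ 2 * Q ^ 3 + 2667600 * a ^ 2 * b ^ 2 * P ^ 3 * Q ^ 2 - 1037400 * a ^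
  2 * b ^ 2 * P ^ 4 * Q + 124488 * a ^ 2 * b ^ 2 * P ^ 5 + 228 * a ^ 3 * b * Q ^ 5 - 17100 * a ^ 3
  * b * P * Q ^ 4 + 239400 * a ^ 3 * b * P ^ 2 * Q ^ 3 - 1037400 * a ^ 3 * b * P ^ 3 * Q ^ 2 +
  1556100 * a ^ 3 * b * P ^ 4 * Q - 684684 * a ^ 3 * b * P ^ 5 + 15504 * a ^ 4 * P ^ 5

/-- coefficient of `t ^ 6` in the formal expansion. -/
def rs4c6 (a b P Q : R) : R :=
  38760 * b ^ 4 * Q ^ 6 + 1141140 * a * b ^ 3 * Q ^ 6 - 3423420 * a * b ^ 3 * P * Q ^ 5 + 3112200 *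
  a * b ^ 3 * P ^ 2 * Q ^ 4 - 1037400 * a * b ^ 3 * P ^ 3 * Q ^ 3 + 119700 * a * b ^ 3 * P ^ 4 * Q
  ^ 2 - 3420 * a * b ^ 3 * P ^ 5 * Q + 103740 * a ^ 2 * b ^ 2 * Q ^ 6 - 1244880 * a ^ 2 * b ^ 2 * P
  * Q ^ 5 + 4668300 * a ^ 2 * b ^ 2 * P ^ 2 * Q ^ 4 - 7113600 * a ^ 2 * b ^ 2 * P ^ 3 * Q ^ 3 +
  4668300 * a ^ 2 * b ^ 2 * P ^ 4 * Q ^ 2 - 1244880 * a ^ 2 * b ^ 2 * P ^ 5 * Q + 103740 * a ^ 2 *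
  b ^ 2 * P ^ 6 + 3420 * a ^ 3 * b * P * Q ^ 5 - 119700 * a ^ 3 * b * P ^ 2 * Q ^ 4 + 1037400 * a ^
  3 * b * P ^ 3 * Q ^ 3 - 3112200 * a ^ 3 * b * P ^ 4 * Q ^ 2 + 3423420 * a ^ 3 * b * P ^ 5 * Q -
  1141140 * a ^ 3 * b * P ^ 6 + 38760 * a ^ 4 * P ^ 6

/-- coefficient of `t ^ 7` in the formal expansion. -/
def rs4c7 (a b P Q : R) : R :=
  -77520 * b ^ 4 * Q ^ 7 - 1467180 * a * b ^ 3 * Q ^ 7 + 5705700 * a * b ^ 3 * P * Q ^ 6 - 6846840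
  * a * b ^ 3 * P ^ 2 * Q ^ 5 + 3112200 * a * b ^ 3 * P ^ 3 * Q ^ 4 - 518700 * a * b ^ 3 * P ^ 4 *
  Q ^ 3 + 23940 * a * b ^ 3 * P ^ 5 * Q ^ 2 - 59280 * a ^ 2 * b ^ 2 * Q ^ 7 + 1037400 * a ^ 2 * b ^
  2 * P * Q ^ 6 - 5601960 * a ^ 2 * b ^ 2 * P ^ 2 * Q ^ 5 + 12448800 * a ^ 2 * b ^ 2 * P ^ 3 * Q ^
  4 - 12448800 * a ^ 2 * b ^ 2 * P ^ 4 * Q ^ 3 + 5601960 * a ^ 2 * b ^ 2 * P ^ 5 * Q ^ 2 - 1037400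
  * a ^ 2 * b ^ 2 * P ^ 6 * Q + 59280 * a ^ 2 * b ^ 2 * P ^ 7 + 23940 * a ^ 3 * b * P ^ 2 * Q ^ 5 -
  518700 * a ^ 3 * b * P ^ 3 * Q ^ 4 + 3112200 * a ^ 3 * b * P ^ 4 * Q ^ 3 - 6846840 * a ^ 3 * b *
  P ^ 5 * Q ^ 2 + 5705700 * a ^ 3 * b * P ^ 6 * Q - 1467180 * a ^ 3 * b * P ^ 7 + 77520 * a ^ 4 * P
  ^ 7

/-- coefficient of `t ^ 8` in the formal expansion. -/
def rs4c8 (a b P Q : R) : R :=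
  125970 * b ^ 4 * Q ^ 8 + 1467180 * a * b ^ 3 * Q ^ 8 - 7335900 * a * b ^ 3 * P * Q ^ 7 + 11411400
  * a * b ^ 3 * P ^ 2 * Q ^ 6 - 6846840 * a * b ^ 3 * P ^ 3 * Q ^ 5 + 1556100 * a * b ^ 3 * P ^ 4 *
  Q ^ 4 - 103740 * a * b ^ 3 * P ^ 5 * Q ^ 3 + 22230 * a ^ 2 * b ^ 2 * Q ^ 8 - 592800 * a ^ 2 * b ^
  2 * P * Q ^ 7 + 4668300 * a ^ 2 * b ^ 2 * P ^ 2 * Q ^ 6 - 14938560 * a ^ 2 * b ^ 2 * P ^ 3 * Q ^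
  5 + 21785400 * a ^ 2 * b ^ 2 * P ^ 4 * Q ^ 4 - 14938560 * a ^ 2 * b ^ 2 * P ^ 5 * Q ^ 3 + 4668300
  * a ^ 2 * b ^ 2 * P ^ 6 * Q ^ 2 - 592800 * a ^ 2 * b ^ 2 * P ^ 7 * Q + 22230 * a ^ 2 * b ^ 2 * P
  ^ 8 + 103740 * a ^ 3 * b * P ^ 3 * Q ^ 5 - 1556100 * a ^ 3 * b * P ^ 4 * Q ^ 4 + 6846840 * a ^ 3
  * b * P ^ 5 * Q ^ 3 - 11411400 * a ^ 3 * b * P ^ 6 * Q ^ 2 + 7335900 * a ^ 3 * b * P ^ 7 * Q -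
  1467180 * a ^ 3 * b * P ^ 8 + 125970 * a ^ 4 * P ^ 8

/-- coefficient of `t ^ 9` in the formal expansion. -/
def rs4c9 (a b P Q : R) : R :=
  -167960 * b ^ 4 * Q ^ 9 - 1141140 * a * b ^ 3 * Q ^ 9 + 7335900 * a * b ^ 3 * P * Q ^ 8 -
  14671800 * a * b ^ 3 * P ^ 2 * Q ^ 7 + 11411400 * a * b ^ 3 * P ^ 3 * Q ^ 6 - 3423420 * a * b ^ 3
  * P ^ 4 * Q ^ 5 + 311220 * a * b ^ 3 * P ^ 5 * Q ^ 4 - 4940 * a ^ 2 * b ^ 2 * Q ^ 9 + 222300 * a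
  ^ 2 * b ^ 2 * P * Q ^ 8 - 2667600 * a ^ 2 * b ^ 2 * P ^ 2 * Q ^ 7 + 12448800 * a ^ 2 * b ^ 2 * P
  ^ 3 * Q ^ 6 - 26142480 * a ^ 2 * b ^ 2 * P ^ 4 * Q ^ 5 + 26142480 * a ^ 2 * b ^ 2 * P ^ 5 * Q ^ 4
  - 12448800 * a ^ 2 * b ^ 2 * P ^ 6 * Q ^ 3 + 2667600 * a ^ 2 * b ^ 2 * P ^ 7 * Q ^ 2 - 222300 * a
  ^ 2 * b ^ 2 * P ^ 8 * Q + 4940 * a ^ 2 * b ^ 2 * P ^ 9 + 311220 * a ^ 3 * b * P ^ 4 * Q ^ 5 -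
  3423420 * a ^ 3 * b * P ^ 5 * Q ^ 4 + 11411400 * a ^ 3 * b * P ^ 6 * Q ^ 3 - 14671800 * a ^ 3 * b
  * P ^ 7 * Q ^ 2 + 7335900 * a ^ 3 * b * P ^ 8 * Q - 1141140 * a ^ 3 * b * P ^ 9 + 167960 * a ^ 4
  * P ^ 9

/-- coefficient of `t ^ 10` in the formal expansion. -/
def rs4c10 (a b P Q : R) : R :=
  184756 * b ^ 4 * Q ^ 10 + 684684 * a * b ^ 3 * Q ^ 10 - 5705700 * a * b ^ 3 * P * Q ^ 9 +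
  14671800 * a * b ^ 3 * P ^ 2 * Q ^ 8 - 14671800 * a * b ^ 3 * P ^ 3 * Q ^ 7 + 5705700 * a * b ^ 3
  * P ^ 4 * Q ^ 6 - 684684 * a * b ^ 3 * P ^ 5 * Q ^ 5 + 494 * a ^ 2 * b ^ 2 * Q ^ 10 - 49400 * a ^
  2 * b ^ 2 * P * Q ^ 9 + 1000350 * a ^ 2 * b ^ 2 * P ^ 2 * Q ^ 8 - 7113600 * a ^ 2 * b ^ 2 * P ^ 3
  * Q ^ 7 + 21785400 * a ^ 2 * b ^ 2 * P ^ 4 * Q ^ 6 - 31370976 * a ^ 2 * b ^ 2 * P ^ 5 * Q ^ 5 +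
  21785400 * a ^ 2 * b ^ 2 * P ^ 6 * Q ^ 4 - 7113600 * a ^ 2 * b ^ 2 * P ^ 7 * Q ^ 3 + 1000350 * a
  ^ 2 * b ^ 2 * P ^ 8 * Q ^ 2 - 49400 * a ^ 2 * b ^ 2 * P ^ 9 * Q + 494 * a ^ 2 * b ^ 2 * P ^ 10 +
  684684 * a ^ 3 * b * P ^ 5 * Q ^ 5 - 5705700 * a ^ 3 * b * P ^ 6 * Q ^ 4 + 14671800 * a ^ 3 * b *
  P ^ 7 * Q ^ 3 - 14671800 * a ^ 3 * b * P ^ 8 * Q ^ 2 + 5705700 * a ^ 3 * b * P ^ 9 * Q - 684684 *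
  a ^ 3 * b * P ^ 10 + 184756 * a ^ 4 * P ^ 10

/-- coefficient of `t ^ 11` in the formal expansion. -/
def rs4c11 (a b P Q : R) : R :=
  -167960 * b ^ 4 * Q ^ 11 - 311220 * a * b ^ 3 * Q ^ 11 + 3423420 * a * b ^ 3 * P * Q ^ 10 -
  11411400 * a * b ^ 3 * P ^ 2 * Q ^ 9 + 14671800 * a * b ^ 3 * P ^ 3 * Q ^ 8 - 7335900 * a * b ^ 3
  * P ^ 4 * Q ^ 7 + 1141140 * a * b ^ 3 * P ^ 5 * Q ^ 6 + 4940 * a ^ 2 * b ^ 2 * P * Q ^ 10 -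
  222300 * a ^ 2 * b ^ 2 * P ^ 2 * Q ^ 9 + 2667600 * a ^ 2 * b ^ 2 * P ^ 3 * Q ^ 8 - 12448800 * a ^
  2 * b ^ 2 * P ^ 4 * Q ^ 7 + 26142480 * a ^ 2 * b ^ 2 * P ^ 5 * Q ^ 6 - 26142480 * a ^ 2 * b ^ 2 *
  P ^ 6 * Q ^ 5 + 12448800 * a ^ 2 * b ^ 2 * P ^ 7 * Q ^ 4 - 2667600 * a ^ 2 * b ^ 2 * P ^ 8 * Q ^
  3 + 222300 * a ^ 2 * b ^ 2 * P ^ 9 * Q ^ 2 - 4940 * a ^ 2 * b ^ 2 * P ^ 10 * Q + 1141140 * a ^ 3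
  * b * P ^ 6 * Q ^ 5 - 7335900 * a ^ 3 * b * P ^ 7 * Q ^ 4 + 14671800 * a ^ 3 * b * P ^ 8 * Q ^ 3
  - 11411400 * a ^ 3 * b * P ^ 9 * Q ^ 2 + 3423420 * a ^ 3 * b * P ^ 10 * Q - 311220 * a ^ 3 * b *
  P ^ 11 + 167960 * a ^ 4 * P ^ 11

/-- coefficient of `t ^ 12` in the formal expansion. -/
def rs4c12 (a b P Q : R) : R :=
  125970 * b ^ 4 * Q ^ 12 + 103740 * a * b ^ 3 * Q ^ 12 - 1556100 * a * b ^ 3 * P * Q ^ 11 +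
  6846840 * a * b ^ 3 * P ^ 2 * Q ^ 10 - 11411400 * a * b ^ 3 * P ^ 3 * Q ^ 9 + 7335900 * a * b ^ 3
  * P ^ 4 * Q ^ 8 - 1467180 * a * b ^ 3 * P ^ 5 * Q ^ 7 + 22230 * a ^ 2 * b ^ 2 * P ^ 2 * Q ^ 10 -
  592800 * a ^ 2 * b ^ 2 * P ^ 3 * Q ^ 9 + 4668300 * a ^ 2 * b ^ 2 * P ^ 4 * Q ^ 8 - 14938560 * a ^
  2 * b ^ 2 * P ^ 5 * Q ^ 7 + 21785400 * a ^ 2 * b ^ 2 * P ^ 6 * Q ^ 6 - 14938560 * a ^ 2 * b ^ 2 *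
  P ^ 7 * Q ^ 5 + 4668300 * a ^ 2 * b ^ 2 * P ^ 8 * Q ^ 4 - 592800 * a ^ 2 * b ^ 2 * P ^ 9 * Q ^ 3
  + 22230 * a ^ 2 * b ^ 2 * P ^ 10 * Q ^ 2 + 1467180 * a ^ 3 * b * P ^ 7 * Q ^ 5 - 7335900 * a ^ 3
  * b * P ^ 8 * Q ^ 4 + 11411400 * a ^ 3 * b * P ^ 9 * Q ^ 3 - 6846840 * a ^ 3 * b * P ^ 10 * Q ^ 2
  + 1556100 * a ^ 3 * b * P ^ 11 * Q - 103740 * a ^ 3 * b * P ^ 12 + 125970 * a ^ 4 * P ^ 12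

/-- coefficient of `t ^ 13` in the formal expansion. -/
def rs4c13 (a b P Q : R) : R :=
  -77520 * b ^ 4 * Q ^ 13 - 23940 * a * b ^ 3 * Q ^ 13 + 518700 * a * b ^ 3 * P * Q ^ 12 - 3112200
  * a * b ^ 3 * P ^ 2 * Q ^ 11 + 6846840 * a * b ^ 3 * P ^ 3 * Q ^ 10 - 5705700 * a * b ^ 3 * P ^ 4
  * Q ^ 9 + 1467180 * a * b ^ 3 * P ^ 5 * Q ^ 8 + 59280 * a ^ 2 * b ^ 2 * P ^ 3 * Q ^ 10 - 1037400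
  * a ^ 2 * b ^ 2 * P ^ 4 * Q ^ 9 + 5601960 * a ^ 2 * b ^ 2 * P ^ 5 * Q ^ 8 - 12448800 * a ^ 2 * b
  ^ 2 * P ^ 6 * Q ^ 7 + 12448800 * a ^ 2 * b ^ 2 * P ^ 7 * Q ^ 6 - 5601960 * a ^ 2 * b ^ 2 * P ^ 8
  * Q ^ 5 + 1037400 * a ^ 2 * b ^ 2 * P ^ 9 * Q ^ 4 - 59280 * a ^ 2 * b ^ 2 * P ^ 10 * Q ^ 3 +
  1467180 * a ^ 3 * b * P ^ 8 * Q ^ 5 - 5705700 * a ^ 3 * b * P ^ 9 * Q ^ 4 + 6846840 * a ^ 3 * b *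
  P ^ 10 * Q ^ 3 - 3112200 * a ^ 3 * b * P ^ 11 * Q ^ 2 + 518700 * a ^ 3 * b * P ^ 12 * Q - 23940 *
  a ^ 3 * b * P ^ 13 + 77520 * a ^ 4 * P ^ 13

/-- coefficient of `t ^ 14` in the formal expansion. -/
def rs4c14 (a b P Q : R) : R :=
  38760 * b ^ 4 * Q ^ 14 + 3420 * a * b ^ 3 * Q ^ 14 - 119700 * a * b ^ 3 * P * Q ^ 13 + 1037400 *
  a * b ^ 3 * P ^ 2 * Q ^ 12 - 3112200 * a * b ^ 3 * P ^ 3 * Q ^ 11 + 3423420 * a * b ^ 3 * P ^ 4 *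
  Q ^ 10 - 1141140 * a * b ^ 3 * P ^ 5 * Q ^ 9 + 103740 * a ^ 2 * b ^ 2 * P ^ 4 * Q ^ 10 - 1244880
  * a ^ 2 * b ^ 2 * P ^ 5 * Q ^ 9 + 4668300 * a ^ 2 * b ^ 2 * P ^ 6 * Q ^ 8 - 7113600 * a ^ 2 * b ^
  2 * P ^ 7 * Q ^ 7 + 4668300 * a ^ 2 * b ^ 2 * P ^ 8 * Q ^ 6 - 1244880 * a ^ 2 * b ^ 2 * P ^ 9 * Q
  ^ 5 + 103740 * a ^ 2 * b ^ 2 * P ^ 10 * Q ^ 4 + 1141140 * a ^ 3 * b * P ^ 9 * Q ^ 5 - 3423420 * a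
  ^ 3 * b * P ^ 10 * Q ^ 4 + 3112200 * a ^ 3 * b * P ^ 11 * Q ^ 3 - 1037400 * a ^ 3 * b * P ^ 12 *
  Q ^ 2 + 119700 * a ^ 3 * b * P ^ 13 * Q - 3420 * a ^ 3 * b * P ^ 14 + 38760 * a ^ 4 * P ^ 14

/-- coefficient of `t ^ 15` in the formal expansion. -/
def rs4c15 (a b P Q : R) : R :=
  -15504 * b ^ 4 * Q ^ 15 - 228 * a * b ^ 3 * Q ^ 15 + 17100 * a * b ^ 3 * P * Q ^ 14 - 239400 * a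
  * b ^ 3 * P ^ 2 * Q ^ 13 + 1037400 * a * b ^ 3 * P ^ 3 * Q ^ 12 - 1556100 * a * b ^ 3 * P ^ 4 * Q
  ^ 11 + 684684 * a * b ^ 3 * P ^ 5 * Q ^ 10 + 124488 * a ^ 2 * b ^ 2 * P ^ 5 * Q ^ 10 - 1037400 *
  a ^ 2 * b ^ 2 * P ^ 6 * Q ^ 9 + 2667600 * a ^ 2 * b ^ 2 * P ^ 7 * Q ^ 8 - 2667600 * a ^ 2 * b ^ 2
  * P ^ 8 * Q ^ 7 + 1037400 * a ^ 2 * b ^ 2 * P ^ 9 * Q ^ 6 - 124488 * a ^ 2 * b ^ 2 * P ^ 10 * Q ^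
  5 + 684684 * a ^ 3 * b * P ^ 10 * Q ^ 5 - 1556100 * a ^ 3 * b * P ^ 11 * Q ^ 4 + 1037400 * a ^ 3
  * b * P ^ 12 * Q ^ 3 - 239400 * a ^ 3 * b * P ^ 13 * Q ^ 2 + 17100 * a ^ 3 * b * P ^ 14 * Q - 228
  * a ^ 3 * b * P ^ 15 + 15504 * a ^ 4 * P ^ 15

/-- coefficient of `t ^ 16` in the formal expansion. -/
def rs4c16 (a b P Q : R) : R :=
  4845 * b ^ 4 * Q ^ 16 - 1140 * a * b ^ 3 * P * Q ^ 15 + 34200 * a * b ^ 3 * P ^ 2 * Q ^ 14 -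
  239400 * a * b ^ 3 * P ^ 3 * Q ^ 13 + 518700 * a * b ^ 3 * P ^ 4 * Q ^ 12 - 311220 * a * b ^ 3 *
  P ^ 5 * Q ^ 11 + 103740 * a ^ 2 * b ^ 2 * P ^ 6 * Q ^ 10 - 592800 * a ^ 2 * b ^ 2 * P ^ 7 * Q ^ 9
  + 1000350 * a ^ 2 * b ^ 2 * P ^ 8 * Q ^ 8 - 592800 * a ^ 2 * b ^ 2 * P ^ 9 * Q ^ 7 + 103740 * a ^
  2 * b ^ 2 * P ^ 10 * Q ^ 6 + 311220 * a ^ 3 * b * P ^ 11 * Q ^ 5 - 518700 * a ^ 3 * b * P ^ 12 *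
  Q ^ 4 + 239400 * a ^ 3 * b * P ^ 13 * Q ^ 3 - 34200 * a ^ 3 * b * P ^ 14 * Q ^ 2 + 1140 * a ^ 3 *
  b * P ^ 15 * Q + 4845 * a ^ 4 * P ^ 16

/-- coefficient of `t ^ 17` in the formal expansion. -/
def rs4c17 (a b P Q : R) : R :=
  -1140 * b ^ 4 * Q ^ 17 - 2280 * a * b ^ 3 * P ^ 2 * Q ^ 15 + 34200 * a * b ^ 3 * P ^ 3 * Q ^ 14 -
  119700 * a * b ^ 3 * P ^ 4 * Q ^ 13 + 103740 * a * b ^ 3 * P ^ 5 * Q ^ 12 + 59280 * a ^ 2 * b ^ 2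
  * P ^ 7 * Q ^ 10 - 222300 * a ^ 2 * b ^ 2 * P ^ 8 * Q ^ 9 + 222300 * a ^ 2 * b ^ 2 * P ^ 9 * Q ^
  8 - 59280 * a ^ 2 * b ^ 2 * P ^ 10 * Q ^ 7 + 103740 * a ^ 3 * b * P ^ 12 * Q ^ 5 - 119700 * a ^ 3
  * b * P ^ 13 * Q ^ 4 + 34200 * a ^ 3 * b * P ^ 14 * Q ^ 3 - 2280 * a ^ 3 * b * P ^ 15 * Q ^ 2 +
  1140 * a ^ 4 * P ^ 17

/-- coefficient of `t ^ 18` in the formal expansion. -/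
def rs4c18 (a b P Q : R) : R :=
  190 * b ^ 4 * Q ^ 18 - 2280 * a * b ^ 3 * P ^ 3 * Q ^ 15 + 17100 * a * b ^ 3 * P ^ 4 * Q ^ 14 -
  23940 * a * b ^ 3 * P ^ 5 * Q ^ 13 + 22230 * a ^ 2 * b ^ 2 * P ^ 8 * Q ^ 10 - 49400 * a ^ 2 * b ^
  2 * P ^ 9 * Q ^ 9 + 22230 * a ^ 2 * b ^ 2 * P ^ 10 * Q ^ 8 + 23940 * a ^ 3 * b * P ^ 13 * Q ^ 5 -
  17100 * a ^ 3 * b * P ^ 14 * Q ^ 4 + 2280 * a ^ 3 * b * P ^ 15 * Q ^ 3 + 190 * a ^ 4 * P ^ 18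

/-- coefficient of `t ^ 19` in the formal expansion. -/
def rs4c19 (a b P Q : R) : R :=
  -20 * b ^ 4 * Q ^ 19 - 1140 * a * b ^ 3 * P ^ 4 * Q ^ 15 + 3420 * a * b ^ 3 * P ^ 5 * Q ^ 14 +
  4940 * a ^ 2 * b ^ 2 * P ^ 9 * Q ^ 10 - 4940 * a ^ 2 * b ^ 2 * P ^ 10 * Q ^ 9 + 3420 * a ^ 3 * b
  * P ^ 14 * Q ^ 5 - 1140 * a ^ 3 * b * P ^ 15 * Q ^ 4 + 20 * a ^ 4 * P ^ 19

/-- coefficient of `t ^ 20` in the formal expansion. -/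
def rs4c20 (a b P Q : R) : R :=
  b ^ 4 * Q ^ 20 - 228 * a * b ^ 3 * P ^ 5 * Q ^ 15 + 494 * a ^ 2 * b ^ 2 * P ^ 10 * Q ^ 10 + 228 *
  a ^ 3 * b * P ^ 15 * Q ^ 5 + a ^ 4 * P ^ 20

/-- formal expansion in powers of `t`. -/
theorem rs4_expand (t a b P Q : R) :
    kE4 (a * (1 + t * P) ^ 5) (b * (1 - t * Q) ^ 5) =
      rs4c0 a b P Q + rs4c1 a b P Q * t + rs4c2 a b P Q * t ^ 2 + rs4c3 a b P Q * t ^ 3 + rs4c4 a b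
      P Q * t ^ 4 + rs4c5 a b P Q * t ^ 5 + rs4c6 a b P Q * t ^ 6 + rs4c7 a b P Q * t ^ 7 + rs4c8 a
      b P Q * t ^ 8 + rs4c9 a b P Q * t ^ 9 + rs4c10 a b P Q * t ^ 10 + rs4c11 a b P Q * t ^ 11 +
      rs4c12 a b P Q * t ^ 12 + rs4c13 a b P Q * t ^ 13 + rs4c14 a b P Q * t ^ 14 + rs4c15 a b P Q
      * t ^ 15 + rs4c16 a b P Q * t ^ 16 + rs4c17 a b P Q * t ^ 17 + rs4c18 a b P Q * t ^ 18 +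
      rs4c19 a b P Q * t ^ 19 + rs4c20 a b P Q * t ^ 20 := by
  simp only [kE4, rs4c0, rs4c1, rs4c2, rs4c3, rs4c4, rs4c5, rs4c6, rs4c7, rs4c8, rs4c9, rs4c10, rs4c11, rs4c12, rs4c13, rs4c14, rs4c15, rs4c16, rs4c17, rs4c18, rs4c19, rs4c20]
  ring

end Fermat.Agent.S52
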