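import Fermat.Agent.S52.Plan

/-!
# S52 / RS: formal expansion in `t` for `kE6` with `P, Q` as atoms (GENERATED)
-/

set_option autoImplicit false
set_option linter.unusedSimpArgs false
set_option linter.unusedVariables false
set_option linter.style.longLine false
set_option maxRecDepth 100000
set_option maxHeartbeats 4000000

namespace Fermat.Agent.S52

variable {R : Type*} [CommRing R]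

/-- coefficient of `t ^ 0` in the formal expansion. -/
def rs6c0 (a b P Q : R) : R :=
  -b ^ 6 + 522 * a * b ^ 5 + 10005 * a ^ 2 * b ^ 4 + 10005 * a ^ 4 * b ^ 2 - 522 * a ^ 5 * b - a ^
  6

/-- coefficient of `t ^ 1` in the formal expansion. -/
def rs6c1 (a b P Q : R) : R :=
  30 * b ^ 6 * Q - 13050 * a * b ^ 5 * Q + 2610 * a * b ^ 5 * P - 200100 * a ^ 2 * b ^ 4 * Q +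
  100050 * a ^ 2 * b ^ 4 * P - 100050 * a ^ 4 * b ^ 2 * Q + 200100 * a ^ 4 * b ^ 2 * P + 2610 * a ^
  5 * b * Q - 13050 * a ^ 5 * b * P - 30 * a ^ 6 * P

/-- coefficient of `t ^ 2` in the formal expansion. -/
def rs6c2 (a b P Q : R) : R :=
  -435 * b ^ 6 * Q ^ 2 + 156600 * a * b ^ 5 * Q ^ 2 - 65250 * a * b ^ 5 * P * Q + 5220 * a * b ^ 5
  * P ^ 2 + 1900950 * a ^ 2 * b ^ 4 * Q ^ 2 - 2001000 * a ^ 2 * b ^ 4 * P * Q + 450225 * a ^ 2 * b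
  ^ 4 * P ^ 2 + 450225 * a ^ 4 * b ^ 2 * Q ^ 2 - 2001000 * a ^ 4 * b ^ 2 * P * Q + 1900950 * a ^ 4
  * b ^ 2 * P ^ 2 - 5220 * a ^ 5 * b * Q ^ 2 + 65250 * a ^ 5 * b * P * Q - 156600 * a ^ 5 * b * P ^
  2 - 435 * a ^ 6 * P ^ 2

/-- coefficient of `t ^ 3` in the formal expansion. -/
def rs6c3 (a b P Q : R) : R :=
  4060 * b ^ 6 * Q ^ 3 - 1200600 * a * b ^ 5 * Q ^ 3 + 783000 * a * b ^ 5 * P * Q ^ 2 - 130500 * a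
  * b ^ 5 * P ^ 2 * Q + 5220 * a * b ^ 5 * P ^ 3 - 11405700 * a ^ 2 * b ^ 4 * Q ^ 3 + 19009500 * a
  ^ 2 * b ^ 4 * P * Q ^ 2 - 9004500 * a ^ 2 * b ^ 4 * P ^ 2 * Q + 1200600 * a ^ 2 * b ^ 4 * P ^ 3 -
  1200600 * a ^ 4 * b ^ 2 * Q ^ 3 + 9004500 * a ^ 4 * b ^ 2 * P * Q ^ 2 - 19009500 * a ^ 4 * b ^ 2
  * P ^ 2 * Q + 11405700 * a ^ 4 * b ^ 2 * P ^ 3 + 5220 * a ^ 5 * b * Q ^ 3 - 130500 * a ^ 5 * b *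
  P * Q ^ 2 + 783000 * a ^ 5 * b * P ^ 2 * Q - 1200600 * a ^ 5 * b * P ^ 3 - 4060 * a ^ 6 * P ^ 3

/-- coefficient of `t ^ 4` in the formal expansion. -/
def rs6c4 (a b P Q : R) : R :=
  -27405 * b ^ 6 * Q ^ 4 + 6603300 * a * b ^ 5 * Q ^ 4 - 6003000 * a * b ^ 5 * P * Q ^ 3 + 1566000
  * a * b ^ 5 * P ^ 2 * Q ^ 2 - 130500 * a * b ^ 5 * P ^ 3 * Q + 2610 * a * b ^ 5 * P ^ 4 +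
  48474225 * a ^ 2 * b ^ 4 * Q ^ 4 - 114057000 * a ^ 2 * b ^ 4 * P * Q ^ 3 + 85542750 * a ^ 2 * b ^
  4 * P ^ 2 * Q ^ 2 - 24012000 * a ^ 2 * b ^ 4 * P ^ 3 * Q + 2101050 * a ^ 2 * b ^ 4 * P ^ 4 +
  2101050 * a ^ 4 * b ^ 2 * Q ^ 4 - 24012000 * a ^ 4 * b ^ 2 * P * Q ^ 3 + 85542750 * a ^ 4 * b ^ 2
  * P ^ 2 * Q ^ 2 - 114057000 * a ^ 4 * b ^ 2 * P ^ 3 * Q + 48474225 * a ^ 4 * b ^ 2 * P ^ 4 - 2610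
  * a ^ 5 * b * Q ^ 4 + 130500 * a ^ 5 * b * P * Q ^ 3 - 1566000 * a ^ 5 * b * P ^ 2 * Q ^ 2 +
  6003000 * a ^ 5 * b * P ^ 3 * Q - 6603300 * a ^ 5 * b * P ^ 4 - 27405 * a ^ 6 * P ^ 4

/-- coefficient of `t ^ 5` in the formal expansion. -/
def rs6c5 (a b P Q : R) : R :=
  142506 * b ^ 6 * Q ^ 5 - 27733860 * a * b ^ 5 * Q ^ 5 + 33016500 * a * b ^ 5 * P * Q ^ 4 -
  12006000 * a * b ^ 5 * P ^ 2 * Q ^ 3 + 1566000 * a * b ^ 5 * P ^ 3 * Q ^ 2 - 65250 * a * b ^ 5 *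
  P ^ 4 * Q + 522 * a * b ^ 5 * P ^ 5 - 155117520 * a ^ 2 * b ^ 4 * Q ^ 5 + 484742250 * a ^ 2 * b ^
  4 * P * Q ^ 4 - 513256500 * a ^ 2 * b ^ 4 * P ^ 2 * Q ^ 3 + 228114000 * a ^ 2 * b ^ 4 * P ^ 3 * Q
  ^ 2 - 42021000 * a ^ 2 * b ^ 4 * P ^ 4 * Q + 2521260 * a ^ 2 * b ^ 4 * P ^ 5 - 2521260 * a ^ 4 *
  b ^ 2 * Q ^ 5 + 42021000 * a ^ 4 * b ^ 2 * P * Q ^ 4 - 228114000 * a ^ 4 * b ^ 2 * P ^ 2 * Q ^ 3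
  + 513256500 * a ^ 4 * b ^ 2 * P ^ 3 * Q ^ 2 - 484742250 * a ^ 4 * b ^ 2 * P ^ 4 * Q + 155117520 *
  a ^ 4 * b ^ 2 * P ^ 5 + 522 * a ^ 5 * b * Q ^ 5 - 65250 * a ^ 5 * b * P * Q ^ 4 + 1566000 * a ^ 5
  * b * P ^ 2 * Q ^ 3 - 12006000 * a ^ 5 * b * P ^ 3 * Q ^ 2 + 33016500 * a ^ 5 * b * P ^ 4 * Q -
  27733860 * a ^ 5 * b * P ^ 5 - 142506 * a ^ 6 * P ^ 5

/-- coefficient of `t ^ 6` in the formal expansion. -/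
def rs6c6 (a b P Q : R) : R :=
  -593775 * b ^ 6 * Q ^ 6 + 92446200 * a * b ^ 5 * Q ^ 6 - 138669300 * a * b ^ 5 * P * Q ^ 5 +
  66033000 * a * b ^ 5 * P ^ 2 * Q ^ 4 - 12006000 * a * b ^ 5 * P ^ 3 * Q ^ 3 + 783000 * a * b ^ 5
  * P ^ 4 * Q ^ 2 - 13050 * a * b ^ 5 * P ^ 5 * Q + 387793800 * a ^ 2 * b ^ 4 * Q ^ 6 - 1551175200
  * a ^ 2 * b ^ 4 * P * Q ^ 5 + 2181340125 * a ^ 2 * b ^ 4 * P ^ 2 * Q ^ 4 - 1368684000 * a ^ 2 * b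
  ^ 4 * P ^ 3 * Q ^ 3 + 399199500 * a ^ 2 * b ^ 4 * P ^ 4 * Q ^ 2 - 50425200 * a ^ 2 * b ^ 4 * P ^
  5 * Q + 2101050 * a ^ 2 * b ^ 4 * P ^ 6 + 2101050 * a ^ 4 * b ^ 2 * Q ^ 6 - 50425200 * a ^ 4 * b
  ^ 2 * P * Q ^ 5 + 399199500 * a ^ 4 * b ^ 2 * P ^ 2 * Q ^ 4 - 1368684000 * a ^ 4 * b ^ 2 * P ^ 3
  * Q ^ 3 + 2181340125 * a ^ 4 * b ^ 2 * P ^ 4 * Q ^ 2 - 1551175200 * a ^ 4 * b ^ 2 * P ^ 5 * Q +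
  387793800 * a ^ 4 * b ^ 2 * P ^ 6 + 13050 * a ^ 5 * b * P * Q ^ 5 - 783000 * a ^ 5 * b * P ^ 2 *
  Q ^ 4 + 12006000 * a ^ 5 * b * P ^ 3 * Q ^ 3 - 66033000 * a ^ 5 * b * P ^ 4 * Q ^ 2 + 138669300 *
  a ^ 5 * b * P ^ 5 * Q - 92446200 * a ^ 5 * b * P ^ 6 - 593775 * a ^ 6 * P ^ 6

/-- coefficient of `t ^ 7` in the formal expansion. -/
def rs6c7 (a b P Q : R) : R :=
  2035800 * b ^ 6 * Q ^ 7 - 250925400 * a * b ^ 5 * Q ^ 7 + 462231000 * a * b ^ 5 * P * Q ^ 6 -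
  277338600 * a * b ^ 5 * P ^ 2 * Q ^ 5 + 66033000 * a * b ^ 5 * P ^ 3 * Q ^ 4 - 6003000 * a * b ^
  5 * P ^ 4 * Q ^ 3 + 156600 * a * b ^ 5 * P ^ 5 * Q ^ 2 - 775587600 * a ^ 2 * b ^ 4 * Q ^ 7 +
  3877938000 * a ^ 2 * b ^ 4 * P * Q ^ 6 - 6980288400 * a ^ 2 * b ^ 4 * P ^ 2 * Q ^ 5 + 5816907000
  * a ^ 2 * b ^ 4 * P ^ 3 * Q ^ 4 - 2395197000 * a ^ 2 * b ^ 4 * P ^ 4 * Q ^ 3 + 479039400 * a ^ 2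
  * b ^ 4 * P ^ 5 * Q ^ 2 - 42021000 * a ^ 2 * b ^ 4 * P ^ 6 * Q + 1200600 * a ^ 2 * b ^ 4 * P ^ 7
  - 1200600 * a ^ 4 * b ^ 2 * Q ^ 7 + 42021000 * a ^ 4 * b ^ 2 * P * Q ^ 6 - 479039400 * a ^ 4 * b
  ^ 2 * P ^ 2 * Q ^ 5 + 2395197000 * a ^ 4 * b ^ 2 * P ^ 3 * Q ^ 4 - 5816907000 * a ^ 4 * b ^ 2 * P
  ^ 4 * Q ^ 3 + 6980288400 * a ^ 4 * b ^ 2 * P ^ 5 * Q ^ 2 - 3877938000 * a ^ 4 * b ^ 2 * P ^ 6 * Q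
  + 775587600 * a ^ 4 * b ^ 2 * P ^ 7 + 156600 * a ^ 5 * b * P ^ 2 * Q ^ 5 - 6003000 * a ^ 5 * b *
  P ^ 3 * Q ^ 4 + 66033000 * a ^ 5 * b * P ^ 4 * Q ^ 3 - 277338600 * a ^ 5 * b * P ^ 5 * Q ^ 2 +
  462231000 * a ^ 5 * b * P ^ 6 * Q - 250925400 * a ^ 5 * b * P ^ 7 - 2035800 * a ^ 6 * P ^ 7

/-- coefficient of `t ^ 8` in the formal expansion. -/
def rs6c8 (a b P Q : R) : R :=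
  -5852925 * b ^ 6 * Q ^ 8 + 564582150 * a * b ^ 5 * Q ^ 8 - 1254627000 * a * b ^ 5 * P * Q ^ 7 +
  924462000 * a * b ^ 5 * P ^ 2 * Q ^ 6 - 277338600 * a * b ^ 5 * P ^ 3 * Q ^ 5 + 33016500 * a * b
  ^ 5 * P ^ 4 * Q ^ 4 - 1200600 * a * b ^ 5 * P ^ 5 * Q ^ 3 + 1260329850 * a ^ 2 * b ^ 4 * Q ^ 8 -
  7755876000 * a ^ 2 * b ^ 4 * P * Q ^ 7 + 17450721000 * a ^ 2 * b ^ 4 * P ^ 2 * Q ^ 6 -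
  18614102400 * a ^ 2 * b ^ 4 * P ^ 3 * Q ^ 5 + 10179587250 * a ^ 2 * b ^ 4 * P ^ 4 * Q ^ 4 -
  2874236400 * a ^ 2 * b ^ 4 * P ^ 5 * Q ^ 3 + 399199500 * a ^ 2 * b ^ 4 * P ^ 6 * Q ^ 2 - 24012000
  * a ^ 2 * b ^ 4 * P ^ 7 * Q + 450225 * a ^ 2 * b ^ 4 * P ^ 8 + 450225 * a ^ 4 * b ^ 2 * Q ^ 8 -
  24012000 * a ^ 4 * b ^ 2 * P * Q ^ 7 + 399199500 * a ^ 4 * b ^ 2 * P ^ 2 * Q ^ 6 - 2874236400 * a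
  ^ 4 * b ^ 2 * P ^ 3 * Q ^ 5 + 10179587250 * a ^ 4 * b ^ 2 * P ^ 4 * Q ^ 4 - 18614102400 * a ^ 4 *
  b ^ 2 * P ^ 5 * Q ^ 3 + 17450721000 * a ^ 4 * b ^ 2 * P ^ 6 * Q ^ 2 - 7755876000 * a ^ 4 * b ^ 2
  * P ^ 7 * Q + 1260329850 * a ^ 4 * b ^ 2 * P ^ 8 + 1200600 * a ^ 5 * b * P ^ 3 * Q ^ 5 - 33016500
  * a ^ 5 * b * P ^ 4 * Q ^ 4 + 277338600 * a ^ 5 * b * P ^ 5 * Q ^ 3 - 924462000 * a ^ 5 * b * P ^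
  6 * Q ^ 2 + 1254627000 * a ^ 5 * b * P ^ 7 * Q - 564582150 * a ^ 5 * b * P ^ 8 - 5852925 * a ^ 6
  * P ^ 8

/-- coefficient of `t ^ 9` in the formal expansion. -/
def rs6c9 (a b P Q : R) : R :=
  14307150 * b ^ 6 * Q ^ 9 - 1066432950 * a * b ^ 5 * Q ^ 9 + 2822910750 * a * b ^ 5 * P * Q ^ 8 -
  2509254000 * a * b ^ 5 * P ^ 2 * Q ^ 7 + 924462000 * a * b ^ 5 * P ^ 3 * Q ^ 6 - 138669300 * a *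
  b ^ 5 * P ^ 4 * Q ^ 5 + 6603300 * a * b ^ 5 * P ^ 5 * Q ^ 4 - 1680439800 * a ^ 2 * b ^ 4 * Q ^ 9
  + 12603298500 * a ^ 2 * b ^ 4 * P * Q ^ 8 - 34901442000 * a ^ 2 * b ^ 4 * P ^ 2 * Q ^ 7 +
  46535256000 * a ^ 2 * b ^ 4 * P ^ 3 * Q ^ 6 - 32574679200 * a ^ 2 * b ^ 4 * P ^ 4 * Q ^ 5 +
  12215504700 * a ^ 2 * b ^ 4 * P ^ 5 * Q ^ 4 - 2395197000 * a ^ 2 * b ^ 4 * P ^ 6 * Q ^ 3 +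
  228114000 * a ^ 2 * b ^ 4 * P ^ 7 * Q ^ 2 - 9004500 * a ^ 2 * b ^ 4 * P ^ 8 * Q + 100050 * a ^ 2
  * b ^ 4 * P ^ 9 - 100050 * a ^ 4 * b ^ 2 * Q ^ 9 + 9004500 * a ^ 4 * b ^ 2 * P * Q ^ 8 -
  228114000 * a ^ 4 * b ^ 2 * P ^ 2 * Q ^ 7 + 2395197000 * a ^ 4 * b ^ 2 * P ^ 3 * Q ^ 6 -
  12215504700 * a ^ 4 * b ^ 2 * P ^ 4 * Q ^ 5 + 32574679200 * a ^ 4 * b ^ 2 * P ^ 5 * Q ^ 4 -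
  46535256000 * a ^ 4 * b ^ 2 * P ^ 6 * Q ^ 3 + 34901442000 * a ^ 4 * b ^ 2 * P ^ 7 * Q ^ 2 -
  12603298500 * a ^ 4 * b ^ 2 * P ^ 8 * Q + 1680439800 * a ^ 4 * b ^ 2 * P ^ 9 + 6603300 * a ^ 5 *
  b * P ^ 4 * Q ^ 5 - 138669300 * a ^ 5 * b * P ^ 5 * Q ^ 4 + 924462000 * a ^ 5 * b * P ^ 6 * Q ^ 3
  - 2509254000 * a ^ 5 * b * P ^ 7 * Q ^ 2 + 2822910750 * a ^ 5 * b * P ^ 8 * Q - 1066432950 * a ^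
  5 * b * P ^ 9 - 14307150 * a ^ 6 * P ^ 9

/-- coefficient of `t ^ 10` in the formal expansion. -/
def rs6c10 (a b P Q : R) : R :=
  -30045015 * b ^ 6 * Q ^ 10 + 1706292720 * a * b ^ 5 * Q ^ 10 - 5332164750 * a * b ^ 5 * P * Q ^ 9
  + 5645821500 * a * b ^ 5 * P ^ 2 * Q ^ 8 - 2509254000 * a * b ^ 5 * P ^ 3 * Q ^ 7 + 462231000 * a
  * b ^ 5 * P ^ 4 * Q ^ 6 - 27733860 * a * b ^ 5 * P ^ 5 * Q ^ 5 + 1848483780 * a ^ 2 * b ^ 4 * Q ^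
  10 - 16804398000 * a ^ 2 * b ^ 4 * P * Q ^ 9 + 56714843250 * a ^ 2 * b ^ 4 * P ^ 2 * Q ^ 8 -
  93070512000 * a ^ 2 * b ^ 4 * P ^ 3 * Q ^ 7 + 81436698000 * a ^ 2 * b ^ 4 * P ^ 4 * Q ^ 6 -
  39089615040 * a ^ 2 * b ^ 4 * P ^ 5 * Q ^ 5 + 10179587250 * a ^ 2 * b ^ 4 * P ^ 6 * Q ^ 4 -
  1368684000 * a ^ 2 * b ^ 4 * P ^ 7 * Q ^ 3 + 85542750 * a ^ 2 * b ^ 4 * P ^ 8 * Q ^ 2 - 2001000 *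
  a ^ 2 * b ^ 4 * P ^ 9 * Q + 10005 * a ^ 2 * b ^ 4 * P ^ 10 + 10005 * a ^ 4 * b ^ 2 * Q ^ 10 -
  2001000 * a ^ 4 * b ^ 2 * P * Q ^ 9 + 85542750 * a ^ 4 * b ^ 2 * P ^ 2 * Q ^ 8 - 1368684000 * a ^
  4 * b ^ 2 * P ^ 3 * Q ^ 7 + 10179587250 * a ^ 4 * b ^ 2 * P ^ 4 * Q ^ 6 - 39089615040 * a ^ 4 * b
  ^ 2 * P ^ 5 * Q ^ 5 + 81436698000 * a ^ 4 * b ^ 2 * P ^ 6 * Q ^ 4 - 93070512000 * a ^ 4 * b ^ 2 *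
  P ^ 7 * Q ^ 3 + 56714843250 * a ^ 4 * b ^ 2 * P ^ 8 * Q ^ 2 - 16804398000 * a ^ 4 * b ^ 2 * P ^ 9
  * Q + 1848483780 * a ^ 4 * b ^ 2 * P ^ 10 + 27733860 * a ^ 5 * b * P ^ 5 * Q ^ 5 - 462231000 * a
  ^ 5 * b * P ^ 6 * Q ^ 4 + 2509254000 * a ^ 5 * b * P ^ 7 * Q ^ 3 - 5645821500 * a ^ 5 * b * P ^ 8
  * Q ^ 2 + 5332164750 * a ^ 5 * b * P ^ 9 * Q - 1706292720 * a ^ 5 * b * P ^ 10 - 30045015 * a ^ 6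
  * P ^ 10

/-- coefficient of `t ^ 11` in the formal expansion. -/
def rs6c11 (a b P Q : R) : R :=
  54627300 * b ^ 6 * Q ^ 11 - 2326762800 * a * b ^ 5 * Q ^ 11 + 8531463600 * a * b ^ 5 * P * Q ^ 10
  - 10664329500 * a * b ^ 5 * P ^ 2 * Q ^ 9 + 5645821500 * a * b ^ 5 * P ^ 3 * Q ^ 8 - 1254627000 *
  a * b ^ 5 * P ^ 4 * Q ^ 7 + 92446200 * a * b ^ 5 * P ^ 5 * Q ^ 6 - 1680439800 * a ^ 2 * b ^ 4 * Q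
  ^ 11 + 18484837800 * a ^ 2 * b ^ 4 * P * Q ^ 10 - 75619791000 * a ^ 2 * b ^ 4 * P ^ 2 * Q ^ 9 +
  151239582000 * a ^ 2 * b ^ 4 * P ^ 3 * Q ^ 8 - 162873396000 * a ^ 2 * b ^ 4 * P ^ 4 * Q ^ 7 +
  97724037600 * a ^ 2 * b ^ 4 * P ^ 5 * Q ^ 6 - 32574679200 * a ^ 2 * b ^ 4 * P ^ 6 * Q ^ 5 +
  5816907000 * a ^ 2 * b ^ 4 * P ^ 7 * Q ^ 4 - 513256500 * a ^ 2 * b ^ 4 * P ^ 8 * Q ^ 3 + 19009500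
  * a ^ 2 * b ^ 4 * P ^ 9 * Q ^ 2 - 200100 * a ^ 2 * b ^ 4 * P ^ 10 * Q + 200100 * a ^ 4 * b ^ 2 *
  P * Q ^ 10 - 19009500 * a ^ 4 * b ^ 2 * P ^ 2 * Q ^ 9 + 513256500 * a ^ 4 * b ^ 2 * P ^ 3 * Q ^ 8
  - 5816907000 * a ^ 4 * b ^ 2 * P ^ 4 * Q ^ 7 + 32574679200 * a ^ 4 * b ^ 2 * P ^ 5 * Q ^ 6 -
  97724037600 * a ^ 4 * b ^ 2 * P ^ 6 * Q ^ 5 + 162873396000 * a ^ 4 * b ^ 2 * P ^ 7 * Q ^ 4 -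
  151239582000 * a ^ 4 * b ^ 2 * P ^ 8 * Q ^ 3 + 75619791000 * a ^ 4 * b ^ 2 * P ^ 9 * Q ^ 2 -
  18484837800 * a ^ 4 * b ^ 2 * P ^ 10 * Q + 1680439800 * a ^ 4 * b ^ 2 * P ^ 11 + 92446200 * a ^ 5
  * b * P ^ 6 * Q ^ 5 - 1254627000 * a ^ 5 * b * P ^ 7 * Q ^ 4 + 5645821500 * a ^ 5 * b * P ^ 8 * Q
  ^ 3 - 10664329500 * a ^ 5 * b * P ^ 9 * Q ^ 2 + 8531463600 * a ^ 5 * b * P ^ 10 * Q - 2326762800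
  * a ^ 5 * b * P ^ 11 - 54627300 * a ^ 6 * P ^ 11

/-- coefficient of `t ^ 12` in the formal expansion. -/
def rs6c12 (a b P Q : R) : R :=
  -86493225 * b ^ 6 * Q ^ 12 + 2714556600 * a * b ^ 5 * Q ^ 12 - 11633814000 * a * b ^ 5 * P * Q ^
  11 + 17062927200 * a * b ^ 5 * P ^ 2 * Q ^ 10 - 10664329500 * a * b ^ 5 * P ^ 3 * Q ^ 9 +
  2822910750 * a * b ^ 5 * P ^ 4 * Q ^ 8 - 250925400 * a * b ^ 5 * P ^ 5 * Q ^ 7 + 1260329850 * a ^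
  2 * b ^ 4 * Q ^ 12 - 16804398000 * a ^ 2 * b ^ 4 * P * Q ^ 11 + 83181770100 * a ^ 2 * b ^ 4 * P ^
  2 * Q ^ 10 - 201652776000 * a ^ 2 * b ^ 4 * P ^ 3 * Q ^ 9 + 264669268500 * a ^ 2 * b ^ 4 * P ^ 4
  * Q ^ 8 - 195448075200 * a ^ 2 * b ^ 4 * P ^ 5 * Q ^ 7 + 81436698000 * a ^ 2 * b ^ 4 * P ^ 6 * Q
  ^ 6 - 18614102400 * a ^ 2 * b ^ 4 * P ^ 7 * Q ^ 5 + 2181340125 * a ^ 2 * b ^ 4 * P ^ 8 * Q ^ 4 -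
  114057000 * a ^ 2 * b ^ 4 * P ^ 9 * Q ^ 3 + 1900950 * a ^ 2 * b ^ 4 * P ^ 10 * Q ^ 2 + 1900950 *
  a ^ 4 * b ^ 2 * P ^ 2 * Q ^ 10 - 114057000 * a ^ 4 * b ^ 2 * P ^ 3 * Q ^ 9 + 2181340125 * a ^ 4 *
  b ^ 2 * P ^ 4 * Q ^ 8 - 18614102400 * a ^ 4 * b ^ 2 * P ^ 5 * Q ^ 7 + 81436698000 * a ^ 4 * b ^ 2
  * P ^ 6 * Q ^ 6 - 195448075200 * a ^ 4 * b ^ 2 * P ^ 7 * Q ^ 5 + 264669268500 * a ^ 4 * b ^ 2 * P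
  ^ 8 * Q ^ 4 - 201652776000 * a ^ 4 * b ^ 2 * P ^ 9 * Q ^ 3 + 83181770100 * a ^ 4 * b ^ 2 * P ^ 10
  * Q ^ 2 - 16804398000 * a ^ 4 * b ^ 2 * P ^ 11 * Q + 1260329850 * a ^ 4 * b ^ 2 * P ^ 12 +
  250925400 * a ^ 5 * b * P ^ 7 * Q ^ 5 - 2822910750 * a ^ 5 * b * P ^ 8 * Q ^ 4 + 10664329500 * a
  ^ 5 * b * P ^ 9 * Q ^ 3 - 17062927200 * a ^ 5 * b * P ^ 10 * Q ^ 2 + 11633814000 * a ^ 5 * b * P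
  ^ 11 * Q - 2714556600 * a ^ 5 * b * P ^ 12 - 86493225 * a ^ 6 * P ^ 12

/-- coefficient of `t ^ 13` in the formal expansion. -/
def rs6c13 (a b P Q : R) : R :=
  119759850 * b ^ 6 * Q ^ 13 - 2714556600 * a * b ^ 5 * Q ^ 13 + 13572783000 * a * b ^ 5 * P * Q ^
  12 - 23267628000 * a * b ^ 5 * P ^ 2 * Q ^ 11 + 17062927200 * a * b ^ 5 * P ^ 3 * Q ^ 10 -
  5332164750 * a * b ^ 5 * P ^ 4 * Q ^ 9 + 564582150 * a * b ^ 5 * P ^ 5 * Q ^ 8 - 775587600 * a ^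
  2 * b ^ 4 * Q ^ 13 + 12603298500 * a ^ 2 * b ^ 4 * P * Q ^ 12 - 75619791000 * a ^ 2 * b ^ 4 * P ^
  2 * Q ^ 11 + 221818053600 * a ^ 2 * b ^ 4 * P ^ 3 * Q ^ 10 - 352892358000 * a ^ 2 * b ^ 4 * P ^ 4
  * Q ^ 9 + 317603122200 * a ^ 2 * b ^ 4 * P ^ 5 * Q ^ 8 - 162873396000 * a ^ 2 * b ^ 4 * P ^ 6 * Q
  ^ 7 + 46535256000 * a ^ 2 * b ^ 4 * P ^ 7 * Q ^ 6 - 6980288400 * a ^ 2 * b ^ 4 * P ^ 8 * Q ^ 5 +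
  484742250 * a ^ 2 * b ^ 4 * P ^ 9 * Q ^ 4 - 11405700 * a ^ 2 * b ^ 4 * P ^ 10 * Q ^ 3 + 11405700
  * a ^ 4 * b ^ 2 * P ^ 3 * Q ^ 10 - 484742250 * a ^ 4 * b ^ 2 * P ^ 4 * Q ^ 9 + 6980288400 * a ^ 4
  * b ^ 2 * P ^ 5 * Q ^ 8 - 46535256000 * a ^ 4 * b ^ 2 * P ^ 6 * Q ^ 7 + 162873396000 * a ^ 4 * b
  ^ 2 * P ^ 7 * Q ^ 6 - 317603122200 * a ^ 4 * b ^ 2 * P ^ 8 * Q ^ 5 + 352892358000 * a ^ 4 * b ^ 2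
  * P ^ 9 * Q ^ 4 - 221818053600 * a ^ 4 * b ^ 2 * P ^ 10 * Q ^ 3 + 75619791000 * a ^ 4 * b ^ 2 * P
  ^ 11 * Q ^ 2 - 12603298500 * a ^ 4 * b ^ 2 * P ^ 12 * Q + 775587600 * a ^ 4 * b ^ 2 * P ^ 13 +
  564582150 * a ^ 5 * b * P ^ 8 * Q ^ 5 - 5332164750 * a ^ 5 * b * P ^ 9 * Q ^ 4 + 17062927200 * a
  ^ 5 * b * P ^ 10 * Q ^ 3 - 23267628000 * a ^ 5 * b * P ^ 11 * Q ^ 2 + 13572783000 * a ^ 5 * b * P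
  ^ 12 * Q - 2714556600 * a ^ 5 * b * P ^ 13 - 119759850 * a ^ 6 * P ^ 13

/-- coefficient of `t ^ 14` in the formal expansion. -/
def rs6c14 (a b P Q : R) : R :=
  -145422675 * b ^ 6 * Q ^ 14 + 2326762800 * a * b ^ 5 * Q ^ 14 - 13572783000 * a * b ^ 5 * P * Q ^
  13 + 27145566000 * a * b ^ 5 * P ^ 2 * Q ^ 12 - 23267628000 * a * b ^ 5 * P ^ 3 * Q ^ 11 +
  8531463600 * a * b ^ 5 * P ^ 4 * Q ^ 10 - 1066432950 * a * b ^ 5 * P ^ 5 * Q ^ 9 + 387793800 * a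
  ^ 2 * b ^ 4 * Q ^ 14 - 7755876000 * a ^ 2 * b ^ 4 * P * Q ^ 13 + 56714843250 * a ^ 2 * b ^ 4 * P
  ^ 2 * Q ^ 12 - 201652776000 * a ^ 2 * b ^ 4 * P ^ 3 * Q ^ 11 + 388181593800 * a ^ 2 * b ^ 4 * P ^
  4 * Q ^ 10 - 423470829600 * a ^ 2 * b ^ 4 * P ^ 5 * Q ^ 9 + 264669268500 * a ^ 2 * b ^ 4 * P ^ 6
  * Q ^ 8 - 93070512000 * a ^ 2 * b ^ 4 * P ^ 7 * Q ^ 7 + 17450721000 * a ^ 2 * b ^ 4 * P ^ 8 * Q ^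
  6 - 1551175200 * a ^ 2 * b ^ 4 * P ^ 9 * Q ^ 5 + 48474225 * a ^ 2 * b ^ 4 * P ^ 10 * Q ^ 4 +
  48474225 * a ^ 4 * b ^ 2 * P ^ 4 * Q ^ 10 - 1551175200 * a ^ 4 * b ^ 2 * P ^ 5 * Q ^ 9 +
  17450721000 * a ^ 4 * b ^ 2 * P ^ 6 * Q ^ 8 - 93070512000 * a ^ 4 * b ^ 2 * P ^ 7 * Q ^ 7 +
  264669268500 * a ^ 4 * b ^ 2 * P ^ 8 * Q ^ 6 - 423470829600 * a ^ 4 * b ^ 2 * P ^ 9 * Q ^ 5 +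
  388181593800 * a ^ 4 * b ^ 2 * P ^ 10 * Q ^ 4 - 201652776000 * a ^ 4 * b ^ 2 * P ^ 11 * Q ^ 3 +
  56714843250 * a ^ 4 * b ^ 2 * P ^ 12 * Q ^ 2 - 7755876000 * a ^ 4 * b ^ 2 * P ^ 13 * Q +
  387793800 * a ^ 4 * b ^ 2 * P ^ 14 + 1066432950 * a ^ 5 * b * P ^ 9 * Q ^ 5 - 8531463600 * a ^ 5
  * b * P ^ 10 * Q ^ 4 + 23267628000 * a ^ 5 * b * P ^ 11 * Q ^ 3 - 27145566000 * a ^ 5 * b * P ^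
  12 * Q ^ 2 + 13572783000 * a ^ 5 * b * P ^ 13 * Q - 2326762800 * a ^ 5 * b * P ^ 14 - 145422675 *
  a ^ 6 * P ^ 14

/-- coefficient of `t ^ 15` in the formal expansion. -/
def rs6c15 (a b P Q : R) : R :=
  155117520 * b ^ 6 * Q ^ 15 - 1706292720 * a * b ^ 5 * Q ^ 15 + 11633814000 * a * b ^ 5 * P * Q ^
  14 - 27145566000 * a * b ^ 5 * P ^ 2 * Q ^ 13 + 27145566000 * a * b ^ 5 * P ^ 3 * Q ^ 12 -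
  11633814000 * a * b ^ 5 * P ^ 4 * Q ^ 11 + 1706292720 * a * b ^ 5 * P ^ 5 * Q ^ 10 - 155117520 *
  a ^ 2 * b ^ 4 * Q ^ 15 + 3877938000 * a ^ 2 * b ^ 4 * P * Q ^ 14 - 34901442000 * a ^ 2 * b ^ 4 *
  P ^ 2 * Q ^ 13 + 151239582000 * a ^ 2 * b ^ 4 * P ^ 3 * Q ^ 12 - 352892358000 * a ^ 2 * b ^ 4 * P
  ^ 4 * Q ^ 11 + 465817912560 * a ^ 2 * b ^ 4 * P ^ 5 * Q ^ 10 - 352892358000 * a ^ 2 * b ^ 4 * P ^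
  6 * Q ^ 9 + 151239582000 * a ^ 2 * b ^ 4 * P ^ 7 * Q ^ 8 - 34901442000 * a ^ 2 * b ^ 4 * P ^ 8 *
  Q ^ 7 + 3877938000 * a ^ 2 * b ^ 4 * P ^ 9 * Q ^ 6 - 155117520 * a ^ 2 * b ^ 4 * P ^ 10 * Q ^ 5 +
  155117520 * a ^ 4 * b ^ 2 * P ^ 5 * Q ^ 10 - 3877938000 * a ^ 4 * b ^ 2 * P ^ 6 * Q ^ 9 +
  34901442000 * a ^ 4 * b ^ 2 * P ^ 7 * Q ^ 8 - 151239582000 * a ^ 4 * b ^ 2 * P ^ 8 * Q ^ 7 +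
  352892358000 * a ^ 4 * b ^ 2 * P ^ 9 * Q ^ 6 - 465817912560 * a ^ 4 * b ^ 2 * P ^ 10 * Q ^ 5 +
  352892358000 * a ^ 4 * b ^ 2 * P ^ 11 * Q ^ 4 - 151239582000 * a ^ 4 * b ^ 2 * P ^ 12 * Q ^ 3 +
  34901442000 * a ^ 4 * b ^ 2 * P ^ 13 * Q ^ 2 - 3877938000 * a ^ 4 * b ^ 2 * P ^ 14 * Q +
  155117520 * a ^ 4 * b ^ 2 * P ^ 15 + 1706292720 * a ^ 5 * b * P ^ 10 * Q ^ 5 - 11633814000 * a ^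
  5 * b * P ^ 11 * Q ^ 4 + 27145566000 * a ^ 5 * b * P ^ 12 * Q ^ 3 - 27145566000 * a ^ 5 * b * P ^
  13 * Q ^ 2 + 11633814000 * a ^ 5 * b * P ^ 14 * Q - 1706292720 * a ^ 5 * b * P ^ 15 - 155117520 *
  a ^ 6 * P ^ 15

/-- coefficient of `t ^ 16` in the formal expansion. -/
def rs6c16 (a b P Q : R) : R :=
  -145422675 * b ^ 6 * Q ^ 16 + 1066432950 * a * b ^ 5 * Q ^ 16 - 8531463600 * a * b ^ 5 * P * Q ^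
  15 + 23267628000 * a * b ^ 5 * P ^ 2 * Q ^ 14 - 27145566000 * a * b ^ 5 * P ^ 3 * Q ^ 13 +
  13572783000 * a * b ^ 5 * P ^ 4 * Q ^ 12 - 2326762800 * a * b ^ 5 * P ^ 5 * Q ^ 11 + 48474225 * a
  ^ 2 * b ^ 4 * Q ^ 16 - 1551175200 * a ^ 2 * b ^ 4 * P * Q ^ 15 + 17450721000 * a ^ 2 * b ^ 4 * P
  ^ 2 * Q ^ 14 - 93070512000 * a ^ 2 * b ^ 4 * P ^ 3 * Q ^ 13 + 264669268500 * a ^ 2 * b ^ 4 * P ^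
  4 * Q ^ 12 - 423470829600 * a ^ 2 * b ^ 4 * P ^ 5 * Q ^ 11 + 388181593800 * a ^ 2 * b ^ 4 * P ^ 6
  * Q ^ 10 - 201652776000 * a ^ 2 * b ^ 4 * P ^ 7 * Q ^ 9 + 56714843250 * a ^ 2 * b ^ 4 * P ^ 8 * Q
  ^ 8 - 7755876000 * a ^ 2 * b ^ 4 * P ^ 9 * Q ^ 7 + 387793800 * a ^ 2 * b ^ 4 * P ^ 10 * Q ^ 6 +
  387793800 * a ^ 4 * b ^ 2 * P ^ 6 * Q ^ 10 - 7755876000 * a ^ 4 * b ^ 2 * P ^ 7 * Q ^ 9 +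
  56714843250 * a ^ 4 * b ^ 2 * P ^ 8 * Q ^ 8 - 201652776000 * a ^ 4 * b ^ 2 * P ^ 9 * Q ^ 7 +
  388181593800 * a ^ 4 * b ^ 2 * P ^ 10 * Q ^ 6 - 423470829600 * a ^ 4 * b ^ 2 * P ^ 11 * Q ^ 5 +
  264669268500 * a ^ 4 * b ^ 2 * P ^ 12 * Q ^ 4 - 93070512000 * a ^ 4 * b ^ 2 * P ^ 13 * Q ^ 3 +
  17450721000 * a ^ 4 * b ^ 2 * P ^ 14 * Q ^ 2 - 1551175200 * a ^ 4 * b ^ 2 * P ^ 15 * Q + 48474225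
  * a ^ 4 * b ^ 2 * P ^ 16 + 2326762800 * a ^ 5 * b * P ^ 11 * Q ^ 5 - 13572783000 * a ^ 5 * b * P
  ^ 12 * Q ^ 4 + 27145566000 * a ^ 5 * b * P ^ 13 * Q ^ 3 - 23267628000 * a ^ 5 * b * P ^ 14 * Q ^
  2 + 8531463600 * a ^ 5 * b * P ^ 15 * Q - 1066432950 * a ^ 5 * b * P ^ 16 - 145422675 * a ^ 6 * P
  ^ 16

/-- coefficient of `t ^ 17` in the formal expansion. -/
def rs6c17 (a b P Q : R) : R :=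
  119759850 * b ^ 6 * Q ^ 17 - 564582150 * a * b ^ 5 * Q ^ 17 + 5332164750 * a * b ^ 5 * P * Q ^ 16
  - 17062927200 * a * b ^ 5 * P ^ 2 * Q ^ 15 + 23267628000 * a * b ^ 5 * P ^ 3 * Q ^ 14 -
  13572783000 * a * b ^ 5 * P ^ 4 * Q ^ 13 + 2714556600 * a * b ^ 5 * P ^ 5 * Q ^ 12 - 11405700 * a
  ^ 2 * b ^ 4 * Q ^ 17 + 484742250 * a ^ 2 * b ^ 4 * P * Q ^ 16 - 6980288400 * a ^ 2 * b ^ 4 * P ^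
  2 * Q ^ 15 + 46535256000 * a ^ 2 * b ^ 4 * P ^ 3 * Q ^ 14 - 162873396000 * a ^ 2 * b ^ 4 * P ^ 4
  * Q ^ 13 + 317603122200 * a ^ 2 * b ^ 4 * P ^ 5 * Q ^ 12 - 352892358000 * a ^ 2 * b ^ 4 * P ^ 6 *
  Q ^ 11 + 221818053600 * a ^ 2 * b ^ 4 * P ^ 7 * Q ^ 10 - 75619791000 * a ^ 2 * b ^ 4 * P ^ 8 * Q
  ^ 9 + 12603298500 * a ^ 2 * b ^ 4 * P ^ 9 * Q ^ 8 - 775587600 * a ^ 2 * b ^ 4 * P ^ 10 * Q ^ 7 +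
  775587600 * a ^ 4 * b ^ 2 * P ^ 7 * Q ^ 10 - 12603298500 * a ^ 4 * b ^ 2 * P ^ 8 * Q ^ 9 +
  75619791000 * a ^ 4 * b ^ 2 * P ^ 9 * Q ^ 8 - 221818053600 * a ^ 4 * b ^ 2 * P ^ 10 * Q ^ 7 +
  352892358000 * a ^ 4 * b ^ 2 * P ^ 11 * Q ^ 6 - 317603122200 * a ^ 4 * b ^ 2 * P ^ 12 * Q ^ 5 +
  162873396000 * a ^ 4 * b ^ 2 * P ^ 13 * Q ^ 4 - 46535256000 * a ^ 4 * b ^ 2 * P ^ 14 * Q ^ 3 +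
  6980288400 * a ^ 4 * b ^ 2 * P ^ 15 * Q ^ 2 - 484742250 * a ^ 4 * b ^ 2 * P ^ 16 * Q + 11405700 *
  a ^ 4 * b ^ 2 * P ^ 17 + 2714556600 * a ^ 5 * b * P ^ 12 * Q ^ 5 - 13572783000 * a ^ 5 * b * P ^
  13 * Q ^ 4 + 23267628000 * a ^ 5 * b * P ^ 14 * Q ^ 3 - 17062927200 * a ^ 5 * b * P ^ 15 * Q ^ 2
  + 5332164750 * a ^ 5 * b * P ^ 16 * Q - 564582150 * a ^ 5 * b * P ^ 17 - 119759850 * a ^ 6 * P ^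
  17

/-- coefficient of `t ^ 18` in the formal expansion. -/
def rs6c18 (a b P Q : R) : R :=
  -86493225 * b ^ 6 * Q ^ 18 + 250925400 * a * b ^ 5 * Q ^ 18 - 2822910750 * a * b ^ 5 * P * Q ^ 17
  + 10664329500 * a * b ^ 5 * P ^ 2 * Q ^ 16 - 17062927200 * a * b ^ 5 * P ^ 3 * Q ^ 15 +
  11633814000 * a * b ^ 5 * P ^ 4 * Q ^ 14 - 2714556600 * a * b ^ 5 * P ^ 5 * Q ^ 13 + 1900950 * a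
  ^ 2 * b ^ 4 * Q ^ 18 - 114057000 * a ^ 2 * b ^ 4 * P * Q ^ 17 + 2181340125 * a ^ 2 * b ^ 4 * P ^
  2 * Q ^ 16 - 18614102400 * a ^ 2 * b ^ 4 * P ^ 3 * Q ^ 15 + 81436698000 * a ^ 2 * b ^ 4 * P ^ 4 *
  Q ^ 14 - 195448075200 * a ^ 2 * b ^ 4 * P ^ 5 * Q ^ 13 + 264669268500 * a ^ 2 * b ^ 4 * P ^ 6 * Q
  ^ 12 - 201652776000 * a ^ 2 * b ^ 4 * P ^ 7 * Q ^ 11 + 83181770100 * a ^ 2 * b ^ 4 * P ^ 8 * Q ^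
  10 - 16804398000 * a ^ 2 * b ^ 4 * P ^ 9 * Q ^ 9 + 1260329850 * a ^ 2 * b ^ 4 * P ^ 10 * Q ^ 8 +
  1260329850 * a ^ 4 * b ^ 2 * P ^ 8 * Q ^ 10 - 16804398000 * a ^ 4 * b ^ 2 * P ^ 9 * Q ^ 9 +
  83181770100 * a ^ 4 * b ^ 2 * P ^ 10 * Q ^ 8 - 201652776000 * a ^ 4 * b ^ 2 * P ^ 11 * Q ^ 7 +
  264669268500 * a ^ 4 * b ^ 2 * P ^ 12 * Q ^ 6 - 195448075200 * a ^ 4 * b ^ 2 * P ^ 13 * Q ^ 5 +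
  81436698000 * a ^ 4 * b ^ 2 * P ^ 14 * Q ^ 4 - 18614102400 * a ^ 4 * b ^ 2 * P ^ 15 * Q ^ 3 +
  2181340125 * a ^ 4 * b ^ 2 * P ^ 16 * Q ^ 2 - 114057000 * a ^ 4 * b ^ 2 * P ^ 17 * Q + 1900950 *
  a ^ 4 * b ^ 2 * P ^ 18 + 2714556600 * a ^ 5 * b * P ^ 13 * Q ^ 5 - 11633814000 * a ^ 5 * b * P ^
  14 * Q ^ 4 + 17062927200 * a ^ 5 * b * P ^ 15 * Q ^ 3 - 10664329500 * a ^ 5 * b * P ^ 16 * Q ^ 2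
  + 2822910750 * a ^ 5 * b * P ^ 17 * Q - 250925400 * a ^ 5 * b * P ^ 18 - 86493225 * a ^ 6 * P ^
  18

/-- coefficient of `t ^ 19` in the formal expansion. -/
def rs6c19 (a b P Q : R) : R :=
  54627300 * b ^ 6 * Q ^ 19 - 92446200 * a * b ^ 5 * Q ^ 19 + 1254627000 * a * b ^ 5 * P * Q ^ 18 -
  5645821500 * a * b ^ 5 * P ^ 2 * Q ^ 17 + 10664329500 * a * b ^ 5 * P ^ 3 * Q ^ 16 - 8531463600 *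
  a * b ^ 5 * P ^ 4 * Q ^ 15 + 2326762800 * a * b ^ 5 * P ^ 5 * Q ^ 14 - 200100 * a ^ 2 * b ^ 4 * Q
  ^ 19 + 19009500 * a ^ 2 * b ^ 4 * P * Q ^ 18 - 513256500 * a ^ 2 * b ^ 4 * P ^ 2 * Q ^ 17 +
  5816907000 * a ^ 2 * b ^ 4 * P ^ 3 * Q ^ 16 - 32574679200 * a ^ 2 * b ^ 4 * P ^ 4 * Q ^ 15 +
  97724037600 * a ^ 2 * b ^ 4 * P ^ 5 * Q ^ 14 - 162873396000 * a ^ 2 * b ^ 4 * P ^ 6 * Q ^ 13 +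
  151239582000 * a ^ 2 * b ^ 4 * P ^ 7 * Q ^ 12 - 75619791000 * a ^ 2 * b ^ 4 * P ^ 8 * Q ^ 11 +
  18484837800 * a ^ 2 * b ^ 4 * P ^ 9 * Q ^ 10 - 1680439800 * a ^ 2 * b ^ 4 * P ^ 10 * Q ^ 9 +
  1680439800 * a ^ 4 * b ^ 2 * P ^ 9 * Q ^ 10 - 18484837800 * a ^ 4 * b ^ 2 * P ^ 10 * Q ^ 9 +
  75619791000 * a ^ 4 * b ^ 2 * P ^ 11 * Q ^ 8 - 151239582000 * a ^ 4 * b ^ 2 * P ^ 12 * Q ^ 7 +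
  162873396000 * a ^ 4 * b ^ 2 * P ^ 13 * Q ^ 6 - 97724037600 * a ^ 4 * b ^ 2 * P ^ 14 * Q ^ 5 +
  32574679200 * a ^ 4 * b ^ 2 * P ^ 15 * Q ^ 4 - 5816907000 * a ^ 4 * b ^ 2 * P ^ 16 * Q ^ 3 +
  513256500 * a ^ 4 * b ^ 2 * P ^ 17 * Q ^ 2 - 19009500 * a ^ 4 * b ^ 2 * P ^ 18 * Q + 200100 * a ^
  4 * b ^ 2 * P ^ 19 + 2326762800 * a ^ 5 * b * P ^ 14 * Q ^ 5 - 8531463600 * a ^ 5 * b * P ^ 15 *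
  Q ^ 4 + 10664329500 * a ^ 5 * b * P ^ 16 * Q ^ 3 - 5645821500 * a ^ 5 * b * P ^ 17 * Q ^ 2 +
  1254627000 * a ^ 5 * b * P ^ 18 * Q - 92446200 * a ^ 5 * b * P ^ 19 - 54627300 * a ^ 6 * P ^ 19

/-- coefficient of `t ^ 20` in the formal expansion. -/
def rs6c20 (a b P Q : R) : R :=
  -30045015 * b ^ 6 * Q ^ 20 + 27733860 * a * b ^ 5 * Q ^ 20 - 462231000 * a * b ^ 5 * P * Q ^ 19 +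
  2509254000 * a * b ^ 5 * P ^ 2 * Q ^ 18 - 5645821500 * a * b ^ 5 * P ^ 3 * Q ^ 17 + 5332164750 *
  a * b ^ 5 * P ^ 4 * Q ^ 16 - 1706292720 * a * b ^ 5 * P ^ 5 * Q ^ 15 + 10005 * a ^ 2 * b ^ 4 * Q
  ^ 20 - 2001000 * a ^ 2 * b ^ 4 * P * Q ^ 19 + 85542750 * a ^ 2 * b ^ 4 * P ^ 2 * Q ^ 18 -
  1368684000 * a ^ 2 * b ^ 4 * P ^ 3 * Q ^ 17 + 10179587250 * a ^ 2 * b ^ 4 * P ^ 4 * Q ^ 16 -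
  39089615040 * a ^ 2 * b ^ 4 * P ^ 5 * Q ^ 15 + 81436698000 * a ^ 2 * b ^ 4 * P ^ 6 * Q ^ 14 -
  93070512000 * a ^ 2 * b ^ 4 * P ^ 7 * Q ^ 13 + 56714843250 * a ^ 2 * b ^ 4 * P ^ 8 * Q ^ 12 -
  16804398000 * a ^ 2 * b ^ 4 * P ^ 9 * Q ^ 11 + 1848483780 * a ^ 2 * b ^ 4 * P ^ 10 * Q ^ 10 +
  1848483780 * a ^ 4 * b ^ 2 * P ^ 10 * Q ^ 10 - 16804398000 * a ^ 4 * b ^ 2 * P ^ 11 * Q ^ 9 +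
  56714843250 * a ^ 4 * b ^ 2 * P ^ 12 * Q ^ 8 - 93070512000 * a ^ 4 * b ^ 2 * P ^ 13 * Q ^ 7 +
  81436698000 * a ^ 4 * b ^ 2 * P ^ 14 * Q ^ 6 - 39089615040 * a ^ 4 * b ^ 2 * P ^ 15 * Q ^ 5 +
  10179587250 * a ^ 4 * b ^ 2 * P ^ 16 * Q ^ 4 - 1368684000 * a ^ 4 * b ^ 2 * P ^ 17 * Q ^ 3 +
  85542750 * a ^ 4 * b ^ 2 * P ^ 18 * Q ^ 2 - 2001000 * a ^ 4 * b ^ 2 * P ^ 19 * Q + 10005 * a ^ 4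
  * b ^ 2 * P ^ 20 + 1706292720 * a ^ 5 * b * P ^ 15 * Q ^ 5 - 5332164750 * a ^ 5 * b * P ^ 16 * Q
  ^ 4 + 5645821500 * a ^ 5 * b * P ^ 17 * Q ^ 3 - 2509254000 * a ^ 5 * b * P ^ 18 * Q ^ 2 +
  462231000 * a ^ 5 * b * P ^ 19 * Q - 27733860 * a ^ 5 * b * P ^ 20 - 30045015 * a ^ 6 * P ^ 20

/-- coefficient of `t ^ 21` in the formal expansion. -/
def rs6c21 (a b P Q : R) : R :=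
  14307150 * b ^ 6 * Q ^ 21 - 6603300 * a * b ^ 5 * Q ^ 21 + 138669300 * a * b ^ 5 * P * Q ^ 20 -
  924462000 * a * b ^ 5 * P ^ 2 * Q ^ 19 + 2509254000 * a * b ^ 5 * P ^ 3 * Q ^ 18 - 2822910750 * a
  * b ^ 5 * P ^ 4 * Q ^ 17 + 1066432950 * a * b ^ 5 * P ^ 5 * Q ^ 16 + 100050 * a ^ 2 * b ^ 4 * P *
  Q ^ 20 - 9004500 * a ^ 2 * b ^ 4 * P ^ 2 * Q ^ 19 + 228114000 * a ^ 2 * b ^ 4 * P ^ 3 * Q ^ 18 -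
  2395197000 * a ^ 2 * b ^ 4 * P ^ 4 * Q ^ 17 + 12215504700 * a ^ 2 * b ^ 4 * P ^ 5 * Q ^ 16 -
  32574679200 * a ^ 2 * b ^ 4 * P ^ 6 * Q ^ 15 + 46535256000 * a ^ 2 * b ^ 4 * P ^ 7 * Q ^ 14 -
  34901442000 * a ^ 2 * b ^ 4 * P ^ 8 * Q ^ 13 + 12603298500 * a ^ 2 * b ^ 4 * P ^ 9 * Q ^ 12 -
  1680439800 * a ^ 2 * b ^ 4 * P ^ 10 * Q ^ 11 + 1680439800 * a ^ 4 * b ^ 2 * P ^ 11 * Q ^ 10 -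
  12603298500 * a ^ 4 * b ^ 2 * P ^ 12 * Q ^ 9 + 34901442000 * a ^ 4 * b ^ 2 * P ^ 13 * Q ^ 8 -
  46535256000 * a ^ 4 * b ^ 2 * P ^ 14 * Q ^ 7 + 32574679200 * a ^ 4 * b ^ 2 * P ^ 15 * Q ^ 6 -
  12215504700 * a ^ 4 * b ^ 2 * P ^ 16 * Q ^ 5 + 2395197000 * a ^ 4 * b ^ 2 * P ^ 17 * Q ^ 4 -
  228114000 * a ^ 4 * b ^ 2 * P ^ 18 * Q ^ 3 + 9004500 * a ^ 4 * b ^ 2 * P ^ 19 * Q ^ 2 - 100050 *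
  a ^ 4 * b ^ 2 * P ^ 20 * Q + 1066432950 * a ^ 5 * b * P ^ 16 * Q ^ 5 - 2822910750 * a ^ 5 * b * P
  ^ 17 * Q ^ 4 + 2509254000 * a ^ 5 * b * P ^ 18 * Q ^ 3 - 924462000 * a ^ 5 * b * P ^ 19 * Q ^ 2 +
  138669300 * a ^ 5 * b * P ^ 20 * Q - 6603300 * a ^ 5 * b * P ^ 21 - 14307150 * a ^ 6 * P ^ 21

/-- coefficient of `t ^ 22` in the formal expansion. -/
def rs6c22 (a b P Q : R) : R :=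
  -5852925 * b ^ 6 * Q ^ 22 + 1200600 * a * b ^ 5 * Q ^ 22 - 33016500 * a * b ^ 5 * P * Q ^ 21 +
  277338600 * a * b ^ 5 * P ^ 2 * Q ^ 20 - 924462000 * a * b ^ 5 * P ^ 3 * Q ^ 19 + 1254627000 * a
  * b ^ 5 * P ^ 4 * Q ^ 18 - 564582150 * a * b ^ 5 * P ^ 5 * Q ^ 17 + 450225 * a ^ 2 * b ^ 4 * P ^
  2 * Q ^ 20 - 24012000 * a ^ 2 * b ^ 4 * P ^ 3 * Q ^ 19 + 399199500 * a ^ 2 * b ^ 4 * P ^ 4 * Q ^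
  18 - 2874236400 * a ^ 2 * b ^ 4 * P ^ 5 * Q ^ 17 + 10179587250 * a ^ 2 * b ^ 4 * P ^ 6 * Q ^ 16 -
  18614102400 * a ^ 2 * b ^ 4 * P ^ 7 * Q ^ 15 + 17450721000 * a ^ 2 * b ^ 4 * P ^ 8 * Q ^ 14 -
  7755876000 * a ^ 2 * b ^ 4 * P ^ 9 * Q ^ 13 + 1260329850 * a ^ 2 * b ^ 4 * P ^ 10 * Q ^ 12 +
  1260329850 * a ^ 4 * b ^ 2 * P ^ 12 * Q ^ 10 - 7755876000 * a ^ 4 * b ^ 2 * P ^ 13 * Q ^ 9 +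
  17450721000 * a ^ 4 * b ^ 2 * P ^ 14 * Q ^ 8 - 18614102400 * a ^ 4 * b ^ 2 * P ^ 15 * Q ^ 7 +
  10179587250 * a ^ 4 * b ^ 2 * P ^ 16 * Q ^ 6 - 2874236400 * a ^ 4 * b ^ 2 * P ^ 17 * Q ^ 5 +
  399199500 * a ^ 4 * b ^ 2 * P ^ 18 * Q ^ 4 - 24012000 * a ^ 4 * b ^ 2 * P ^ 19 * Q ^ 3 + 450225 *
  a ^ 4 * b ^ 2 * P ^ 20 * Q ^ 2 + 564582150 * a ^ 5 * b * P ^ 17 * Q ^ 5 - 1254627000 * a ^ 5 * b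
  * P ^ 18 * Q ^ 4 + 924462000 * a ^ 5 * b * P ^ 19 * Q ^ 3 - 277338600 * a ^ 5 * b * P ^ 20 * Q ^
  2 + 33016500 * a ^ 5 * b * P ^ 21 * Q - 1200600 * a ^ 5 * b * P ^ 22 - 5852925 * a ^ 6 * P ^ 22

/-- coefficient of `t ^ 23` in the formal expansion. -/
def rs6c23 (a b P Q : R) : R :=
  2035800 * b ^ 6 * Q ^ 23 - 156600 * a * b ^ 5 * Q ^ 23 + 6003000 * a * b ^ 5 * P * Q ^ 22 -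
  66033000 * a * b ^ 5 * P ^ 2 * Q ^ 21 + 277338600 * a * b ^ 5 * P ^ 3 * Q ^ 20 - 462231000 * a *
  b ^ 5 * P ^ 4 * Q ^ 19 + 250925400 * a * b ^ 5 * P ^ 5 * Q ^ 18 + 1200600 * a ^ 2 * b ^ 4 * P ^ 3
  * Q ^ 20 - 42021000 * a ^ 2 * b ^ 4 * P ^ 4 * Q ^ 19 + 479039400 * a ^ 2 * b ^ 4 * P ^ 5 * Q ^ 18
  - 2395197000 * a ^ 2 * b ^ 4 * P ^ 6 * Q ^ 17 + 5816907000 * a ^ 2 * b ^ 4 * P ^ 7 * Q ^ 16 -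
  6980288400 * a ^ 2 * b ^ 4 * P ^ 8 * Q ^ 15 + 3877938000 * a ^ 2 * b ^ 4 * P ^ 9 * Q ^ 14 -
  775587600 * a ^ 2 * b ^ 4 * P ^ 10 * Q ^ 13 + 775587600 * a ^ 4 * b ^ 2 * P ^ 13 * Q ^ 10 -
  3877938000 * a ^ 4 * b ^ 2 * P ^ 14 * Q ^ 9 + 6980288400 * a ^ 4 * b ^ 2 * P ^ 15 * Q ^ 8 -
  5816907000 * a ^ 4 * b ^ 2 * P ^ 16 * Q ^ 7 + 2395197000 * a ^ 4 * b ^ 2 * P ^ 17 * Q ^ 6 -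
  479039400 * a ^ 4 * b ^ 2 * P ^ 18 * Q ^ 5 + 42021000 * a ^ 4 * b ^ 2 * P ^ 19 * Q ^ 4 - 1200600
  * a ^ 4 * b ^ 2 * P ^ 20 * Q ^ 3 + 250925400 * a ^ 5 * b * P ^ 18 * Q ^ 5 - 462231000 * a ^ 5 * b
  * P ^ 19 * Q ^ 4 + 277338600 * a ^ 5 * b * P ^ 20 * Q ^ 3 - 66033000 * a ^ 5 * b * P ^ 21 * Q ^ 2
  + 6003000 * a ^ 5 * b * P ^ 22 * Q - 156600 * a ^ 5 * b * P ^ 23 - 2035800 * a ^ 6 * P ^ 23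

/-- coefficient of `t ^ 24` in the formal expansion. -/
def rs6c24 (a b P Q : R) : R :=
  -593775 * b ^ 6 * Q ^ 24 + 13050 * a * b ^ 5 * Q ^ 24 - 783000 * a * b ^ 5 * P * Q ^ 23 +
  12006000 * a * b ^ 5 * P ^ 2 * Q ^ 22 - 66033000 * a * b ^ 5 * P ^ 3 * Q ^ 21 + 138669300 * a * b
  ^ 5 * P ^ 4 * Q ^ 20 - 92446200 * a * b ^ 5 * P ^ 5 * Q ^ 19 + 2101050 * a ^ 2 * b ^ 4 * P ^ 4 *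
  Q ^ 20 - 50425200 * a ^ 2 * b ^ 4 * P ^ 5 * Q ^ 19 + 399199500 * a ^ 2 * b ^ 4 * P ^ 6 * Q ^ 18 -
  1368684000 * a ^ 2 * b ^ 4 * P ^ 7 * Q ^ 17 + 2181340125 * a ^ 2 * b ^ 4 * P ^ 8 * Q ^ 16 -
  1551175200 * a ^ 2 * b ^ 4 * P ^ 9 * Q ^ 15 + 387793800 * a ^ 2 * b ^ 4 * P ^ 10 * Q ^ 14 +
  387793800 * a ^ 4 * b ^ 2 * P ^ 14 * Q ^ 10 - 1551175200 * a ^ 4 * b ^ 2 * P ^ 15 * Q ^ 9 +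
  2181340125 * a ^ 4 * b ^ 2 * P ^ 16 * Q ^ 8 - 1368684000 * a ^ 4 * b ^ 2 * P ^ 17 * Q ^ 7 +
  399199500 * a ^ 4 * b ^ 2 * P ^ 18 * Q ^ 6 - 50425200 * a ^ 4 * b ^ 2 * P ^ 19 * Q ^ 5 + 2101050
  * a ^ 4 * b ^ 2 * P ^ 20 * Q ^ 4 + 92446200 * a ^ 5 * b * P ^ 19 * Q ^ 5 - 138669300 * a ^ 5 * b
  * P ^ 20 * Q ^ 4 + 66033000 * a ^ 5 * b * P ^ 21 * Q ^ 3 - 12006000 * a ^ 5 * b * P ^ 22 * Q ^ 2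
  + 783000 * a ^ 5 * b * P ^ 23 * Q - 13050 * a ^ 5 * b * P ^ 24 - 593775 * a ^ 6 * P ^ 24

/-- coefficient of `t ^ 25` in the formal expansion. -/
def rs6c25 (a b P Q : R) : R :=
  142506 * b ^ 6 * Q ^ 25 - 522 * a * b ^ 5 * Q ^ 25 + 65250 * a * b ^ 5 * P * Q ^ 24 - 1566000 * a
  * b ^ 5 * P ^ 2 * Q ^ 23 + 12006000 * a * b ^ 5 * P ^ 3 * Q ^ 22 - 33016500 * a * b ^ 5 * P ^ 4 *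
  Q ^ 21 + 27733860 * a * b ^ 5 * P ^ 5 * Q ^ 20 + 2521260 * a ^ 2 * b ^ 4 * P ^ 5 * Q ^ 20 -
  42021000 * a ^ 2 * b ^ 4 * P ^ 6 * Q ^ 19 + 228114000 * a ^ 2 * b ^ 4 * P ^ 7 * Q ^ 18 -
  513256500 * a ^ 2 * b ^ 4 * P ^ 8 * Q ^ 17 + 484742250 * a ^ 2 * b ^ 4 * P ^ 9 * Q ^ 16 -
  155117520 * a ^ 2 * b ^ 4 * P ^ 10 * Q ^ 15 + 155117520 * a ^ 4 * b ^ 2 * P ^ 15 * Q ^ 10 -
  484742250 * a ^ 4 * b ^ 2 * P ^ 16 * Q ^ 9 + 513256500 * a ^ 4 * b ^ 2 * P ^ 17 * Q ^ 8 -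
  228114000 * a ^ 4 * b ^ 2 * P ^ 18 * Q ^ 7 + 42021000 * a ^ 4 * b ^ 2 * P ^ 19 * Q ^ 6 - 2521260
  * a ^ 4 * b ^ 2 * P ^ 20 * Q ^ 5 + 27733860 * a ^ 5 * b * P ^ 20 * Q ^ 5 - 33016500 * a ^ 5 * b *
  P ^ 21 * Q ^ 4 + 12006000 * a ^ 5 * b * P ^ 22 * Q ^ 3 - 1566000 * a ^ 5 * b * P ^ 23 * Q ^ 2 +
  65250 * a ^ 5 * b * P ^ 24 * Q - 522 * a ^ 5 * b * P ^ 25 - 142506 * a ^ 6 * P ^ 25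

/-- coefficient of `t ^ 26` in the formal expansion. -/
def rs6c26 (a b P Q : R) : R :=
  -27405 * b ^ 6 * Q ^ 26 - 2610 * a * b ^ 5 * P * Q ^ 25 + 130500 * a * b ^ 5 * P ^ 2 * Q ^ 24 -
  1566000 * a * b ^ 5 * P ^ 3 * Q ^ 23 + 6003000 * a * b ^ 5 * P ^ 4 * Q ^ 22 - 6603300 * a * b ^ 5
  * P ^ 5 * Q ^ 21 + 2101050 * a ^ 2 * b ^ 4 * P ^ 6 * Q ^ 20 - 24012000 * a ^ 2 * b ^ 4 * P ^ 7 *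
  Q ^ 19 + 85542750 * a ^ 2 * b ^ 4 * P ^ 8 * Q ^ 18 - 114057000 * a ^ 2 * b ^ 4 * P ^ 9 * Q ^ 17 +
  48474225 * a ^ 2 * b ^ 4 * P ^ 10 * Q ^ 16 + 48474225 * a ^ 4 * b ^ 2 * P ^ 16 * Q ^ 10 -
  114057000 * a ^ 4 * b ^ 2 * P ^ 17 * Q ^ 9 + 85542750 * a ^ 4 * b ^ 2 * P ^ 18 * Q ^ 8 - 24012000
  * a ^ 4 * b ^ 2 * P ^ 19 * Q ^ 7 + 2101050 * a ^ 4 * b ^ 2 * P ^ 20 * Q ^ 6 + 6603300 * a ^ 5 * b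
  * P ^ 21 * Q ^ 5 - 6003000 * a ^ 5 * b * P ^ 22 * Q ^ 4 + 1566000 * a ^ 5 * b * P ^ 23 * Q ^ 3 -
  130500 * a ^ 5 * b * P ^ 24 * Q ^ 2 + 2610 * a ^ 5 * b * P ^ 25 * Q - 27405 * a ^ 6 * P ^ 26

/-- coefficient of `t ^ 27` in the formal expansion. -/
def rs6c27 (a b P Q : R) : R :=
  4060 * b ^ 6 * Q ^ 27 - 5220 * a * b ^ 5 * P ^ 2 * Q ^ 25 + 130500 * a * b ^ 5 * P ^ 3 * Q ^ 24 -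
  783000 * a * b ^ 5 * P ^ 4 * Q ^ 23 + 1200600 * a * b ^ 5 * P ^ 5 * Q ^ 22 + 1200600 * a ^ 2 * b
  ^ 4 * P ^ 7 * Q ^ 20 - 9004500 * a ^ 2 * b ^ 4 * P ^ 8 * Q ^ 19 + 19009500 * a ^ 2 * b ^ 4 * P ^
  9 * Q ^ 18 - 11405700 * a ^ 2 * b ^ 4 * P ^ 10 * Q ^ 17 + 11405700 * a ^ 4 * b ^ 2 * P ^ 17 * Q ^
  10 - 19009500 * a ^ 4 * b ^ 2 * P ^ 18 * Q ^ 9 + 9004500 * a ^ 4 * b ^ 2 * P ^ 19 * Q ^ 8 -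
  1200600 * a ^ 4 * b ^ 2 * P ^ 20 * Q ^ 7 + 1200600 * a ^ 5 * b * P ^ 22 * Q ^ 5 - 783000 * a ^ 5
  * b * P ^ 23 * Q ^ 4 + 130500 * a ^ 5 * b * P ^ 24 * Q ^ 3 - 5220 * a ^ 5 * b * P ^ 25 * Q ^ 2 -
  4060 * a ^ 6 * P ^ 27

/-- coefficient of `t ^ 28` in the formal expansion. -/
def rs6c28 (a b P Q : R) : R :=
  -435 * b ^ 6 * Q ^ 28 - 5220 * a * b ^ 5 * P ^ 3 * Q ^ 25 + 65250 * a * b ^ 5 * P ^ 4 * Q ^ 24 -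
  156600 * a * b ^ 5 * P ^ 5 * Q ^ 23 + 450225 * a ^ 2 * b ^ 4 * P ^ 8 * Q ^ 20 - 2001000 * a ^ 2 *
  b ^ 4 * P ^ 9 * Q ^ 19 + 1900950 * a ^ 2 * b ^ 4 * P ^ 10 * Q ^ 18 + 1900950 * a ^ 4 * b ^ 2 * P
  ^ 18 * Q ^ 10 - 2001000 * a ^ 4 * b ^ 2 * P ^ 19 * Q ^ 9 + 450225 * a ^ 4 * b ^ 2 * P ^ 20 * Q ^
  8 + 156600 * a ^ 5 * b * P ^ 23 * Q ^ 5 - 65250 * a ^ 5 * b * P ^ 24 * Q ^ 4 + 5220 * a ^ 5 * b *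
  P ^ 25 * Q ^ 3 - 435 * a ^ 6 * P ^ 28

/-- coefficient of `t ^ 29` in the formal expansion. -/
def rs6c29 (a b P Q : R) : R :=
  30 * b ^ 6 * Q ^ 29 - 2610 * a * b ^ 5 * P ^ 4 * Q ^ 25 + 13050 * a * b ^ 5 * P ^ 5 * Q ^ 24 +
  100050 * a ^ 2 * b ^ 4 * P ^ 9 * Q ^ 20 - 200100 * a ^ 2 * b ^ 4 * P ^ 10 * Q ^ 19 + 200100 * a ^
  4 * b ^ 2 * P ^ 19 * Q ^ 10 - 100050 * a ^ 4 * b ^ 2 * P ^ 20 * Q ^ 9 + 13050 * a ^ 5 * b * P ^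
  24 * Q ^ 5 - 2610 * a ^ 5 * b * P ^ 25 * Q ^ 4 - 30 * a ^ 6 * P ^ 29

/-- coefficient of `t ^ 30` in the formal expansion. -/
def rs6c30 (a b P Q : R) : R :=
  -b ^ 6 * Q ^ 30 - 522 * a * b ^ 5 * P ^ 5 * Q ^ 25 + 10005 * a ^ 2 * b ^ 4 * P ^ 10 * Q ^ 20 +
  10005 * a ^ 4 * b ^ 2 * P ^ 20 * Q ^ 10 + 522 * a ^ 5 * b * P ^ 25 * Q ^ 5 - a ^ 6 * P ^ 30

/-- formal expansion in powers of `t`. -/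
theorem rs6_expand (t a b P Q : R) :
    -(kE6 (a * (1 + t * P) ^ 5) (b * (1 - t * Q) ^ 5)) =
      rs6c0 a b P Q + rs6c1 a b P Q * t + rs6c2 a b P Q * t ^ 2 + rs6c3 a b P Q * t ^ 3 + rs6c4 a b
      P Q * t ^ 4 + rs6c5 a b P Q * t ^ 5 + rs6c6 a b P Q * t ^ 6 + rs6c7 a b P Q * t ^ 7 + rs6c8 a
      b P Q * t ^ 8 + rs6c9 a b P Q * t ^ 9 + rs6c10 a b P Q * t ^ 10 + rs6c11 a b P Q * t ^ 11 +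
      rs6c12 a b P Q * t ^ 12 + rs6c13 a b P Q * t ^ 13 + rs6c14 a b P Q * t ^ 14 + rs6c15 a b P Q
      * t ^ 15 + rs6c16 a b P Q * t ^ 16 + rs6c17 a b P Q * t ^ 17 + rs6c18 a b P Q * t ^ 18 +
      rs6c19 a b P Q * t ^ 19 + rs6c20 a b P Q * t ^ 20 + rs6c21 a b P Q * t ^ 21 + rs6c22 a b P Q
      * t ^ 22 + rs6c23 a b P Q * t ^ 23 + rs6c24 a b P Q * t ^ 24 + rs6c25 a b P Q * t ^ 25 +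
      rs6c26 a b P Q * t ^ 26 + rs6c27 a b P Q * t ^ 27 + rs6c28 a b P Q * t ^ 28 + rs6c29 a b P Q
      * t ^ 29 + rs6c30 a b P Q * t ^ 30 := by
  simp only [kE6, rs6c0, rs6c1, rs6c2, rs6c3, rs6c4, rs6c5, rs6c6, rs6c7, rs6c8, rs6c9, rs6c10, rs6c11, rs6c12, rs6c13, rs6c14, rs6c15, rs6c16, rs6c17, rs6c18, rs6c19, rs6c20, rs6c21, rs6c22, rs6c23, rs6c24, rs6c25, rs6c26, rs6c27, rs6c28, rs6c29, rs6c30]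
  ring

end Fermat.Agent.S52
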